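import Fermat.Agent.H78.ARTDefs2

/-!
# ART-2: finitely many coordinates generate every admissible quotient

`exists_finset_gen`: for a pro-representable predicate `P` on points there is a finite set
`F` of coordinates such that for every admissible ideal `𝔞` the tautological coordinates
`taut 𝔞 f`, `f ∈ F`, generate `MvPolynomial X 𝒪 ⧸ 𝔞` as an `𝒪`-algebra.
-/

set_option autoImplicit false

noncomputable section

namespace Fermat.Agent.H66

open IsLocalRing Fermat.Agent.H78

/-- The ring hom `A → k[ε]`, `a ↦ r a + Λ a • ε`, attached to a ring hom `r : A → k` and an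
additive map `Λ : A → k` satisfying the Leibniz rule with respect to `r`. -/
def dualRingHom {A : Type} [CommRing A] {k : Type} [Field k] (r : A →+* k) (Λ : A →+ k)
    (h1 : Λ 1 = 0) (hmul : ∀ a b, Λ (a * b) = r a * Λ b + r b * Λ a) :
    A →+* DualNumber k where
  toFun a := TrivSqZeroExt.inl (r a) + TrivSqZeroExt.inr (Λ a)
  map_one' := by
    ext <;> simp [h1]
  map_mul' a b := by
    ext
    · simp
    · simp [hmul]
      ring
  map_zero' := by
    ext <;> simp
  map_add' a b := by
    ext <;> simp

@[simp] theorem dualRingHom_fst {A : Type} [CommRing A] {k : Type} [Field k] (r : A →+* k)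
    (Λ : A →+ k) (h1 : Λ 1 = 0) (hmul : ∀ a b, Λ (a * b) = r a * Λ b + r b * Λ a) (a : A) :
    (dualRingHom r Λ h1 hmul a).fst = r a := by
  simp [dualRingHom]

@[simp] theorem dualRingHom_snd {A : Type} [CommRing A] {k : Type} [Field k] (r : A →+* k)
    (Λ : A →+ k) (h1 : Λ 1 = 0) (hmul : ∀ a b, Λ (a * b) = r a * Λ b + r b * Λ a) (a : A) :
    (dualRingHom r Λ h1 hmul a).snd = Λ a := by
  simp [dualRingHom]

/-- The `𝒪`-algebra hom `A → k[ε]` attached to a "derivation" `Λ` over a ring hom `r`
compatible with the residue map of `𝒪`. -/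
def dualAlgHom {O : Type} [CommRing O] [IsLocalRing O] {A : Type} [CommRing A] [Algebra O A]
    (r : A →+* ResidueField O) (hr : ∀ o, r (algebraMap O A o) = residue O o)
    (Λ : A →+ ResidueField O) (hΛ : ∀ o, Λ (algebraMap O A o) = 0)
    (hmul : ∀ a b, Λ (a * b) = r a * Λ b + r b * Λ a) :
    @AlgHom O A (DualNumber (ResidueField O)) _ _ _ _ (dualNumberAlgebra O) :=
  letI := dualNumberAlgebra O
  { dualRingHom r Λ (by simpa using hΛ 1) hmul with
    commutes' := fun o => by
      show dualRingHom r Λ _ hmul (algebraMap O A o) = _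
      have h1 : algebraMap O (DualNumber (ResidueField O)) o =
          algebraMap (ResidueField O) (DualNumber (ResidueField O)) (residue O o) := rfl
      rw [h1]
      ext
      · simp [hr, TrivSqZeroExt.algebraMap_eq_inl]
      · simp [hΛ, TrivSqZeroExt.algebraMap_eq_inl] }


theorem dualAlgHom_fst {O : Type} [CommRing O] [IsLocalRing O] {A : Type} [CommRing A]
    [Algebra O A] (r : A →+* ResidueField O) (hr : ∀ o, r (algebraMap O A o) = residue O o)
    (Λ : A →+ ResidueField O) (hΛ : ∀ o, Λ (algebraMap O A o) = 0)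
    (hmul : ∀ a b, Λ (a * b) = r a * Λ b + r b * Λ a) (a : A) :
    letI := dualNumberAlgebra O
    (dualAlgHom r hr Λ hΛ hmul a).fst = r a :=
  dualRingHom_fst r Λ (by simpa using hΛ 1) hmul a

theorem dualAlgHom_snd {O : Type} [CommRing O] [IsLocalRing O] {A : Type} [CommRing A]
    [Algebra O A] (r : A →+* ResidueField O) (hr : ∀ o, r (algebraMap O A o) = residue O o)
    (Λ : A →+ ResidueField O) (hΛ : ∀ o, Λ (algebraMap O A o) = 0)
    (hmul : ∀ a b, Λ (a * b) = r a * Λ b + r b * Λ a) (a : A) :
    letI := dualNumberAlgebra O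
    (dualAlgHom r hr Λ hΛ hmul a).snd = Λ a :=
  dualRingHom_snd r Λ (by simpa using hΛ 1) hmul a

/-- An `𝒪`-algebra hom into a local ring whose residue field is covered by `𝒪` is local. -/
theorem isLocalHom_of_residue_surjective (O : Type) [CommRing O] [IsLocalRing O]
    (R B : Type) [CommRing R] [IsLocalRing R] [Algebra O R] [CommRing B] [IsLocalRing B]
    [Algebra O B] (hB : Function.Surjective (IsLocalRing.residue B ∘ algebraMap O B))
    (q : R →ₐ[O] B) : IsLocalHom (q : R →+* B) := by
  set φ : R →+* ResidueField B := (IsLocalRing.residue B).comp (q : R →+* B) with hφ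
  have hsurj : Function.Surjective φ := by
    intro y
    obtain ⟨c, hc⟩ := hB y
    refine ⟨algebraMap O R c, ?_⟩
    simp only [hφ, RingHom.comp_apply, AlgHom.coe_toRingHom, AlgHom.commutes]
    exact hc
  have hmax : (RingHom.ker φ).IsMaximal := RingHom.ker_isMaximal_of_surjective φ hsurj
  have hker : RingHom.ker φ = maximalIdeal R := IsLocalRing.eq_maximalIdeal hmax
  refine ⟨fun r hr => ?_⟩
  by_contra hnu
  have h1 : r ∈ RingHom.ker φ := by
    rw [hker]
    exact (IsLocalRing.mem_maximalIdeal r).mpr hnu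
  have h2 : IsLocalRing.residue B (q r) = 0 := h1
  rw [IsLocalRing.residue_eq_zero_iff] at h2
  exact (IsLocalRing.mem_maximalIdeal _).mp h2 hr

/-- The dual numbers over the residue field are an Artinian test algebra. -/
theorem dualNumber_isArtinianTestAlgebra (O : Type) [CommRing O] [IsLocalRing O] :
    @GaloisRep.IsArtinianTestAlgebra O _ (DualNumber (ResidueField O)) _ _
      (dualNumberAlgebra O) := by
  let _ : Algebra O (DualNumber (ResidueField O)) := dualNumberAlgebra O
  have hsurj : Function.Surjective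
      (IsLocalRing.residue (DualNumber (ResidueField O)) ∘
        algebraMap O (DualNumber (ResidueField O))) := by
    intro y
    obtain ⟨z, rfl⟩ := IsLocalRing.residue_surjective y
    obtain ⟨c, hc⟩ := IsLocalRing.residue_surjective (TrivSqZeroExt.fst z)
    refine ⟨c, ?_⟩
    have h1 : algebraMap O (DualNumber (ResidueField O)) c =
        algebraMap (ResidueField O) (DualNumber (ResidueField O)) (IsLocalRing.residue O c) := rfl
    have h2 : algebraMap O (DualNumber (ResidueField O)) c - z ∈
        maximalIdeal (DualNumber (ResidueField O)) := by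
      rw [DualNumber.maximalIdeal_eq_span_singleton_eps, Ideal.mem_span_singleton,
        ← DualNumber.fst_eq_zero_iff_eps_dvd, h1, hc]
      simp [TrivSqZeroExt.algebraMap_eq_inl]
    show IsLocalRing.residue _ (algebraMap O (DualNumber (ResidueField O)) c) = _
    rw [← sub_eq_zero, ← map_sub, IsLocalRing.residue_eq_zero_iff]
    exact h2
  have hart : IsArtinianRing (DualNumber (ResidueField O)) := by
    rw [isArtinianRing_iff_isNilpotent_maximalIdeal]
    refine ⟨2, ?_⟩
    rw [DualNumber.maximalIdeal_eq_span_singleton_eps, Ideal.span_singleton_pow]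
    simp [pow_two]
  exact ⟨isLocalHom_of_residue_surjective O O (DualNumber (ResidueField O)) hsurj
    (Algebra.ofId O (DualNumber (ResidueField O))), hsurj, hart⟩

/-- A finite set of coordinates separating the (finitely many) tangent vectors. -/
theorem exists_finset_separating {X D : Type} (T : Set (X → D)) (hT : T.Finite) :
    ∃ F : Finset X, ∀ t ∈ T, ∀ t' ∈ T, (∀ f ∈ F, t f = t' f) → t = t' := by
  classical
  induction T, hT using Set.Finite.induction_on with
  | empty => exact ⟨∅, fun t ht => absurd ht (Set.notMem_empty t)⟩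
  | @insert s S hs hS ih =>
    obtain ⟨F, hF⟩ := ih
    -- for each `t ∈ S`, a coordinate separating `s` from `t` (if any)
    have key : ∀ t : X → D, ∃ G : Finset X, (∀ f ∈ G, s f = t f) → s = t := by
      intro t
      by_cases h : s = t
      · exact ⟨∅, fun _ => h⟩
      · obtain ⟨f, hf⟩ := Function.ne_iff.mp h
        exact ⟨{f}, fun hG => absurd (hG f (Finset.mem_singleton_self f)) hf⟩
    choose G hG using key
    refine ⟨F ∪ hS.toFinset.biUnion G, ?_⟩
    have hsub : ∀ t ∈ S, ∀ f ∈ G t, f ∈ F ∪ hS.toFinset.biUnion G := by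
      intro t ht f hf
      refine Finset.mem_union_right _ (Finset.mem_biUnion.mpr ⟨t, ?_, hf⟩)
      exact (Set.Finite.mem_toFinset hS).mpr ht
    intro t ht t' ht' hagree
    rcases Set.mem_insert_iff.mp ht with h1 | h1
    · rcases Set.mem_insert_iff.mp ht' with h2 | h2
      · rw [h1, h2]
      · rw [h1]
        exact hG t' fun f hf => by rw [← h1]; exact hagree f (hsub t' h2 f hf)
    · rcases Set.mem_insert_iff.mp ht' with h2 | h2
      · rw [h2]
        exact (hG t fun f hf => by rw [← h2]; exact (hagree f (hsub t h1 f hf)).symm).symm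
      · exact hF t h1 t' h2 fun f hf => hagree f (Finset.mem_union_left _ hf)


/-- A subalgebra of an Artinian local ring which covers the ring modulo the square of the
maximal ideal is everything. -/
theorem subalgebra_eq_top_of_forall_sub_mem_sq {O A : Type} [CommRing O] [CommRing A]
    [IsLocalRing A] [Algebra O A] [IsArtinianRing A] (B : Subalgebra O A)
    (h2 : ∀ a : A, ∃ b ∈ B, a - b ∈ maximalIdeal A ^ 2) : B = ⊤ := by
  -- elements of `m` are approximated by elements of `B ∩ m`
  have h1 : ∀ w ∈ maximalIdeal A, ∃ b ∈ B, b ∈ maximalIdeal A ∧ w - b ∈ maximalIdeal A ^ 2 := by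
    intro w hw
    obtain ⟨b, hb, hwb⟩ := h2 w
    refine ⟨b, hb, ?_, hwb⟩
    have h3 : w - b ∈ maximalIdeal A := Ideal.pow_le_self two_ne_zero hwb
    have h4 : b = w - (w - b) := by ring
    rw [h4]
    exact Ideal.sub_mem _ hw h3
  have claim : ∀ n : ℕ, ∀ y ∈ maximalIdeal A ^ n,
      ∃ b ∈ B, b ∈ maximalIdeal A ^ n ∧ y - b ∈ maximalIdeal A ^ (n + 1) := by
    intro n
    induction n with
    | zero =>
      intro y _
      obtain ⟨b, hb, hyb⟩ := h2 y
      refine ⟨b, hb, by simp, ?_⟩
      rw [zero_add, pow_one]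
      exact Ideal.pow_le_self two_ne_zero hyb
    | succ n ih =>
      intro y hy
      rw [pow_succ] at hy
      refine Submodule.mul_induction_on hy ?_ ?_
      · intro u hu w hw
        obtain ⟨b₁, hb₁, hb₁m, hub₁⟩ := ih u hu
        obtain ⟨b₂, hb₂, hb₂m, hwb₂⟩ := h1 w hw
        refine ⟨b₁ * b₂, B.mul_mem hb₁ hb₂, ?_, ?_⟩
        · rw [pow_succ]
          exact Ideal.mul_mem_mul hb₁m hb₂m
        · have h5 : u * w - b₁ * b₂ = b₁ * (w - b₂) + (u - b₁) * w := by ring
          rw [h5]
          refine Ideal.add_mem _ ?_ ?_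
          · have h6 : maximalIdeal A ^ (n + 1 + 1) = maximalIdeal A ^ n * maximalIdeal A ^ 2 := by
              rw [← pow_add]
            rw [h6]
            exact Ideal.mul_mem_mul hb₁m hwb₂
          · rw [pow_succ (maximalIdeal A) (n + 1)]
            exact Ideal.mul_mem_mul hub₁ hw
      · intro y₁ y₂ ⟨b₁, hb₁, hb₁m, hy₁⟩ ⟨b₂, hb₂, hb₂m, hy₂⟩
        refine ⟨b₁ + b₂, B.add_mem hb₁ hb₂, Ideal.add_mem _ hb₁m hb₂m, ?_⟩
        have h7 : y₁ + y₂ - (b₁ + b₂) = (y₁ - b₁) + (y₂ - b₂) := by ring
        rw [h7]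
        exact Ideal.add_mem _ hy₁ hy₂
  have approx : ∀ n : ℕ, ∀ a : A, ∃ b ∈ B, a - b ∈ maximalIdeal A ^ n := by
    intro n
    induction n with
    | zero => exact fun a => ⟨0, B.zero_mem, by simp⟩
    | succ n ih =>
      intro a
      obtain ⟨b, hb, hab⟩ := ih a
      obtain ⟨b', hb', -, hab'⟩ := claim n (a - b) hab
      refine ⟨b + b', B.add_mem hb hb', ?_⟩
      have h8 : a - (b + b') = a - b - b' := by ring
      rw [h8]
      exact hab'
  have hnil : IsNilpotent (maximalIdeal A) := by
    have h9 := IsArtinianRing.isNilpotent_jacobson_bot (R := A)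
    rwa [IsLocalRing.jacobson_eq_maximalIdeal (⊥ : Ideal A) bot_ne_top] at h9
  obtain ⟨n, hn⟩ := hnil
  rw [eq_top_iff]
  intro a _
  obtain ⟨b, hb, hab⟩ := approx n a
  rw [hn] at hab
  have h10 : a = b := sub_eq_zero.mp hab
  rw [h10]
  exact hb


/-- Key step: if the finite set `F` of coordinates separates the tangent vectors satisfying
`P`, then for every Artinian test algebra `A` generated by the coordinates of a point `x`
satisfying `P`, the coordinates `x f`, `f ∈ F`, already generate `A`. -/
theorem adjoin_image_eq_top_of_separating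
    {O : Type} [CommRing O] [IsLocalRing O] {X : Type} {c : X → O} {P : PointPred O X}
    (hP : IsProRepresentablePred O c P) (F : Finset X)
    (hF : ∀ t t' : X → DualNumber (ResidueField O),
      @P (DualNumber (ResidueField O)) _ _ (dualNumberAlgebra O) t →
      @P (DualNumber (ResidueField O)) _ _ (dualNumberAlgebra O) t' →
      (∀ f ∈ F, t f = t' f) → t = t')
    {A : Type} [CommRing A] [IsLocalRing A] [Algebra O A]
    (hA : GaloisRep.IsArtinianTestAlgebra O A) (x : X → A) (hx : P x)
    (hgen : Algebra.adjoin O (Set.range x) = ⊤) :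
    Algebra.adjoin O (x '' (F : Set X)) = ⊤ := by
  have : IsArtinianRing A := hA.isArtinian
  have : IsLocalHom (algebraMap O A) := hA.isLocalHom
  set B := Algebra.adjoin O (x '' (F : Set X)) with hB
  apply subalgebra_eq_top_of_forall_sub_mem_sq
  set N : Submodule O A :=
    Subalgebra.toSubmodule B ⊔ ((maximalIdeal A) ^ 2).restrictScalars O with hN
  suffices hNtop : N = ⊤ by
    intro a
    have haN : a ∈ N := hNtop ▸ Submodule.mem_top
    obtain ⟨b, hb, z, hz, hbz⟩ := Submodule.mem_sup.mp haN
    refine ⟨b, hb, ?_⟩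
    have h1 : a - b = z := by rw [← hbz]; ring
    rw [h1]
    exact hz
  by_contra hne
  obtain ⟨a₀, ha₀⟩ : ∃ a₀, a₀ ∉ N := by
    by_contra h
    push Not at h
    exact hne (eq_top_iff.mpr fun a _ => h a)
  -- every element of `A` is congruent to an element of `𝒪` modulo `m`
  have hdec : ∀ a : A, ∃ o : O, a - algebraMap O A o ∈ maximalIdeal A := by
    intro a
    obtain ⟨o, ho⟩ := hA.residue_surjective (residue A a)
    refine ⟨o, ?_⟩
    rw [← residue_eq_zero_iff, map_sub, sub_eq_zero]
    exact ho.symm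
  have hmO : ∀ p ∈ maximalIdeal O, algebraMap O A p ∈ maximalIdeal A := by
    intro p hp
    rw [IsLocalRing.mem_maximalIdeal, mem_nonunits_iff] at hp ⊢
    exact fun h => hp (isUnit_of_map_unit (algebraMap O A) p h)
  have hBN : ∀ b ∈ B, b ∈ N := fun b hb =>
    (le_sup_left : Subalgebra.toSubmodule B ≤ N) hb
  have hmN : ∀ z ∈ maximalIdeal A ^ 2, z ∈ N := fun z hz =>
    (le_sup_right : ((maximalIdeal A) ^ 2).restrictScalars O ≤ N) hz
  -- the quotient `A ⧸ N` is killed by the maximal ideal of `𝒪`
  have hM : Module.IsTorsionBySet O (A ⧸ N) (maximalIdeal O : Set O) := by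
    intro q p
    obtain ⟨a, rfl⟩ := Submodule.Quotient.mk_surjective N q
    rw [← Submodule.Quotient.mk_smul, Submodule.Quotient.mk_eq_zero]
    obtain ⟨o, ho⟩ := hdec a
    have h1 : (p : O) • a =
        algebraMap O A (p * o) + algebraMap O A p * (a - algebraMap O A o) := by
      rw [Algebra.smul_def, map_mul]
      ring
    rw [h1]
    refine N.add_mem (hBN _ (B.algebraMap_mem _)) (hmN _ ?_)
    rw [pow_two]
    exact Ideal.mul_mem_mul (hmO p p.2) ho
  let modk : Module (ResidueField O) (A ⧸ N) := hM.module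
  have hq₀ : N.mkQ a₀ ≠ 0 := by
    rw [Submodule.mkQ_apply, Ne, Submodule.Quotient.mk_eq_zero]
    exact ha₀
  obtain ⟨φ, hφ⟩ := Module.Projective.exists_dual_ne_zero (ResidueField O) hq₀
  -- the functional on `A`
  let Λ : A →+ ResidueField O := (φ : (A ⧸ N) →+ ResidueField O).comp (N.mkQ : A →+ A ⧸ N)
  have hΛdef : ∀ a, Λ a = φ (N.mkQ a) := fun a => rfl
  have hΛN : ∀ a ∈ N, Λ a = 0 := by
    intro a ha
    rw [hΛdef, Submodule.mkQ_apply, (Submodule.Quotient.mk_eq_zero N).mpr ha, map_zero]
  have hΛsmul : ∀ (o : O) (a : A), Λ (algebraMap O A o * a) = residue O o * Λ a := by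
    intro o a
    rw [hΛdef, hΛdef, ← Algebra.smul_def, map_smul]
    have h1 : o • N.mkQ a = (residue O o : ResidueField O) • N.mkQ a := rfl
    rw [h1, map_smul, smul_eq_mul]
  have hΛα : ∀ o : O, Λ (algebraMap O A o) = 0 := fun o => hΛN _ (hBN _ (B.algebraMap_mem o))
  -- the residue map with values in the residue field of `𝒪`
  have hbij : Function.Bijective (ResidueField.map (algebraMap O A)) := by
    refine ⟨(ResidueField.map (algebraMap O A)).injective, ?_⟩
    intro y
    obtain ⟨o, ho⟩ := hA.residue_surjective y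
    exact ⟨residue O o, by rw [ResidueField.map_residue]; exact ho⟩
  let e : ResidueField O ≃+* ResidueField A := RingEquiv.ofBijective _ hbij
  let r : A →+* ResidueField O := (e.symm : ResidueField A →+* ResidueField O).comp (residue A)
  have hr : ∀ o, r (algebraMap O A o) = residue O o := by
    intro o
    show e.symm (residue A (algebraMap O A o)) = residue O o
    rw [RingEquiv.symm_apply_eq]
    show _ = ResidueField.map (algebraMap O A) (residue O o)
    rw [ResidueField.map_residue]
  have hrm : ∀ u ∈ maximalIdeal A, r u = 0 := by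
    intro u hu
    show e.symm (residue A u) = 0
    rw [(residue_eq_zero_iff u).mpr hu, map_zero]
  have hmul : ∀ a b, Λ (a * b) = r a * Λ b + r b * Λ a := by
    intro a b
    obtain ⟨oa, hoa⟩ := hdec a
    obtain ⟨ob, hob⟩ := hdec b
    have h1 : a * b = algebraMap O A oa * b + algebraMap O A ob * (a - algebraMap O A oa) +
        (a - algebraMap O A oa) * (b - algebraMap O A ob) := by ring
    have h2 : Λ ((a - algebraMap O A oa) * (b - algebraMap O A ob)) = 0 := by
      refine hΛN _ (hmN _ ?_)
      rw [pow_two]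
      exact Ideal.mul_mem_mul hoa hob
    have h3 : r a = residue O oa := by
      have h4 : a = algebraMap O A oa + (a - algebraMap O A oa) := by ring
      rw [h4, map_add, hr, hrm _ hoa, add_zero]
    have h5 : r b = residue O ob := by
      have h4 : b = algebraMap O A ob + (b - algebraMap O A ob) := by ring
      rw [h4, map_add, hr, hrm _ hob, add_zero]
    have h6 : Λ (a - algebraMap O A oa) = Λ a := by
      rw [map_sub, hΛα, sub_zero]
    rw [h1, map_add, map_add, h2, hΛsmul, hΛsmul, h6, h3, h5, add_zero]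
  -- the two algebra homs to the dual numbers
  let algD : Algebra O (DualNumber (ResidueField O)) := dualNumberAlgebra O
  have hD : GaloisRep.IsArtinianTestAlgebra O (DualNumber (ResidueField O)) :=
    dualNumber_isArtinianTestAlgebra O
  let h₁ : A →ₐ[O] DualNumber (ResidueField O) := dualAlgHom r hr Λ hΛα hmul
  let h₀ : A →ₐ[O] DualNumber (ResidueField O) :=
    dualAlgHom r hr 0 (fun _ => rfl) (fun a b => by simp)
  have hP₁ : P (h₁ ∘ x) :=
    hP.push hA hD h₁ (isLocalHom_of_residue_surjective O A _ hD.residue_surjective h₁) x hx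
  have hP₀ : P (h₀ ∘ x) :=
    hP.push hA hD h₀ (isLocalHom_of_residue_surjective O A _ hD.residue_surjective h₀) x hx
  have h₁fst : ∀ a, (h₁ a).fst = r a := fun a => dualAlgHom_fst r hr Λ hΛα hmul a
  have h₁snd : ∀ a, (h₁ a).snd = Λ a := fun a => dualAlgHom_snd r hr Λ hΛα hmul a
  have h₀fst : ∀ a, (h₀ a).fst = r a := fun a => dualAlgHom_fst r hr 0 _ _ a
  have h₀snd : ∀ a, (h₀ a).snd = 0 := fun a => dualAlgHom_snd r hr 0 _ _ a
  have heq : h₁ ∘ x = h₀ ∘ x := by
    refine hF _ _ hP₁ hP₀ fun f hf => ?_
    have hxf : x f ∈ B := Algebra.subset_adjoin (Set.mem_image_of_mem x hf)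
    refine TrivSqZeroExt.ext ?_ ?_
    · rw [Function.comp_apply, Function.comp_apply, h₁fst, h₀fst]
    · rw [Function.comp_apply, Function.comp_apply, h₁snd, h₀snd, hΛN _ (hBN _ hxf)]
  have hh : h₁ = h₀ := by
    refine AlgHom.ext_of_adjoin_eq_top hgen ?_
    rintro y ⟨f, rfl⟩
    exact congrFun heq f
  apply hφ
  have h7 : Λ a₀ = 0 := by rw [← h₁snd, hh, h₀snd]
  exact h7

/-- The tautological coordinates generate `MvPolynomial X 𝒪 ⧸ 𝔞`. -/
theorem adjoin_range_taut {O : Type} [CommRing O] [IsLocalRing O] {X : Type}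
    (a : Ideal (MvPolynomial X O)) : Algebra.adjoin O (Set.range (taut a)) = ⊤ := by
  have h1 : Set.range (taut a) =
      (Ideal.Quotient.mkₐ O a) '' (Set.range (MvPolynomial.X : X → MvPolynomial X O)) := by
    ext y
    constructor
    · rintro ⟨f, rfl⟩
      exact ⟨MvPolynomial.X f, ⟨f, rfl⟩, rfl⟩
    · rintro ⟨_, ⟨f, rfl⟩, rfl⟩
      exact ⟨f, rfl⟩
  rw [h1, Algebra.adjoin_image, MvPolynomial.adjoin_range_X, Algebra.map_top,
    AlgHom.range_eq_top]
  exact Ideal.Quotient.mkₐ_surjective O a

variable {O : Type} [CommRing O] [IsDomain O] [IsDiscreteValuationRing O]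
  [IsAdicComplete (IsLocalRing.maximalIdeal O) O] [Finite (IsLocalRing.ResidueField O)]
  {X : Type} {c : X → O} {P : Fermat.Agent.H78.PointPred O X}

set_option linter.unusedSectionVars false in
/-- **ART-2**: finitely many coordinates generate every admissible quotient. -/
theorem exists_finset_gen (hP : Fermat.Agent.H78.IsProRepresentablePred O c P) :
    ∃ F : Finset X, ∀ a : Ideal (MvPolynomial X O), Fermat.Agent.H78.Admissible P a →
      Algebra.adjoin O ((Fermat.Agent.H78.taut a) '' (F : Set X)) = ⊤ := by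
  have hfin : Set.Finite {x : X → DualNumber (ResidueField O) |
      @P (DualNumber (ResidueField O)) _ _ (dualNumberAlgebra O) x} :=
    Set.finite_coe_iff.mp hP.tfin
  obtain ⟨F, hF⟩ := exists_finset_separating _ hfin
  refine ⟨F, fun a hadm => ?_⟩
  obtain ⟨hloc, htest, hPt⟩ := hadm
  exact @adjoin_image_eq_top_of_separating O _ _ X c P hP F
    (fun t t' ht ht' hag => hF t ht t' ht' hag) (MvPolynomial X O ⧸ a) _ hloc _ htest
    (taut a) hPt (adjoin_range_taut a)

end Fermat.Agent.H66
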