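import Mathlib
import Fermat.Prelude.Def_ModularCurve_LaurentCoeff
import Fermat.Prelude.Def_GaloisRep_Flat

/-!
# The Gauss valuation ring inside `ℚ((q))` (P-IGUSA, IG-C backup, stage 1)

`R = ℤ_(ℓ) ⊂ ℚ`.  We define the residue map `R → 𝔽_ℓ`, the coefficientwise maps
`ι : R((q)) → ℚ((q))` and `ρ : R((q)) → 𝔽_ℓ((q))`, the subring
`gaussRing ℓ = {ι a / ι b | ρ b ≠ 0}` of `ℚ((q))` and the reduction map
`gaussRed ℓ : gaussRing ℓ →+* 𝔽_ℓ((q))`, whose kernel is generated by `ℓ`.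
-/

set_option autoImplicit false
set_option linter.unusedSectionVars false

noncomputable section

namespace Fermat.Agent.H66

open ModularCurve

variable (ℓ : ℕ) [Fact ℓ.Prime]

/-- The inclusion `ℤ_(ℓ) → ℤ_[ℓ]`. -/
def zlToPadicInt : ↥(GaloisRep.ratLocalizedAt ℓ) →+* ℤ_[ℓ] where
  toFun x := ⟨((x : ℚ) : ℚ_[ℓ]), Padic.norm_rat_le_one (by
    have h : (x : ℚ).den.Coprime ℓ := x.2
    exact fun hd => (Fact.out : ℓ.Prime).one_lt.ne'
      (Nat.Coprime.eq_one_of_dvd h.symm hd))⟩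
  map_one' := by
    apply Subtype.ext
    simp
  map_mul' x y := by
    apply Subtype.ext
    show (((x * y : ↥(GaloisRep.ratLocalizedAt ℓ)) : ℚ) : ℚ_[ℓ]) =
      ((x : ℚ) : ℚ_[ℓ]) * ((y : ℚ) : ℚ_[ℓ])
    push_cast
    rfl
  map_zero' := by
    apply Subtype.ext
    simp
  map_add' x y := by
    apply Subtype.ext
    show (((x + y : ↥(GaloisRep.ratLocalizedAt ℓ)) : ℚ) : ℚ_[ℓ]) =
      ((x : ℚ) : ℚ_[ℓ]) + ((y : ℚ) : ℚ_[ℓ])
    push_cast
    rfl

/-- The residue map `ℤ_(ℓ) → 𝔽_ℓ`. -/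
def resZl : ↥(GaloisRep.ratLocalizedAt ℓ) →+* ZMod ℓ :=
  PadicInt.toZMod.comp (zlToPadicInt ℓ)

theorem resZl_eq_zero_iff (x : ↥(GaloisRep.ratLocalizedAt ℓ)) :
    resZl ℓ x = 0 ↔ ∃ y : ↥(GaloisRep.ratLocalizedAt ℓ), x = (ℓ : ↥(GaloisRep.ratLocalizedAt ℓ)) * y := by
  constructor
  · intro h
    have hden : (x : ℚ).den.Coprime ℓ := x.2
    -- `x * den = num`
    have hmul : x * ((x : ℚ).den : ↥(GaloisRep.ratLocalizedAt ℓ)) =
        (((x : ℚ).num : ℤ) : ↥(GaloisRep.ratLocalizedAt ℓ)) := by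
      apply Subtype.ext
      push_cast
      exact Rat.mul_den_eq_num (x : ℚ)
    have h1 := congrArg (resZl ℓ) hmul
    rw [map_mul, h, zero_mul, map_intCast] at h1
    have h2 : (ℓ : ℤ) ∣ (x : ℚ).num := (ZMod.intCast_zmod_eq_zero_iff_dvd _ _).mp h1.symm
    obtain ⟨n, hn⟩ := h2
    have hy : ((n : ℚ) / ((x : ℚ).den : ℚ)) ∈ GaloisRep.ratLocalizedAt ℓ := by
      show ((n : ℚ) / ((x : ℚ).den : ℚ)).den.Coprime ℓ
      have h3 : ((n : ℚ) / ((x : ℚ).den : ℚ)) = Rat.divInt n ((x : ℚ).den : ℤ) := by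
        rw [Rat.divInt_eq_div]
        push_cast
        rfl
      rw [h3]
      have h4 : ((Rat.divInt n ((x : ℚ).den : ℤ)).den : ℤ) ∣ ((x : ℚ).den : ℤ) := Rat.den_dvd _ _
      have h5 : (Rat.divInt n ((x : ℚ).den : ℤ)).den ∣ (x : ℚ).den := by exact_mod_cast h4
      exact Nat.Coprime.coprime_dvd_left h5 hden
    refine ⟨⟨_, hy⟩, ?_⟩
    apply Subtype.ext
    have h6 : ((x : ℚ).den : ℚ) ≠ 0 := by exact_mod_cast (x : ℚ).den_nz
    have h7 : (x : ℚ) = ((x : ℚ).num : ℚ) / ((x : ℚ).den : ℚ) := (Rat.num_div_den _).symm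
    have h8 : (((x : ℚ).num : ℤ) : ℚ) = (ℓ : ℚ) * (n : ℚ) := by
      rw [hn]
      push_cast
      rfl
    show (x : ℚ) = ((ℓ : ↥(GaloisRep.ratLocalizedAt ℓ)) : ℚ) * ((n : ℚ) / ((x : ℚ).den : ℚ))
    have h9 : ((ℓ : ↥(GaloisRep.ratLocalizedAt ℓ)) : ℚ) = (ℓ : ℚ) := by push_cast; rfl
    rw [h9, ← mul_div_assoc, ← h8]
    exact h7
  · rintro ⟨y, rfl⟩
    rw [map_mul, map_natCast, ZMod.natCast_self, zero_mul]

theorem zlToPadicInt_injective : Function.Injective (zlToPadicInt ℓ) := by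
  intro x y h
  have h1 : (((x : ℚ) : ℚ_[ℓ])) = ((y : ℚ) : ℚ_[ℓ]) := congrArg Subtype.val h
  exact Subtype.ext (Rat.cast_injective h1)

/-- An element of `ℤ_(ℓ)` divisible by all powers of `ℓ` is zero. -/
theorem eq_zero_of_forall_pow_dvd (c : ↥(GaloisRep.ratLocalizedAt ℓ))
    (h : ∀ m : ℕ, ∃ y : ↥(GaloisRep.ratLocalizedAt ℓ),
      c = (ℓ : ↥(GaloisRep.ratLocalizedAt ℓ)) ^ m * y) : c = 0 := by
  by_contra hc
  have hc' : zlToPadicInt ℓ c ≠ 0 := fun h0 =>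
    hc (zlToPadicInt_injective ℓ (by rw [h0, map_zero]))
  obtain ⟨y, hy⟩ := h ((zlToPadicInt ℓ c).valuation + 1)
  have h1 : zlToPadicInt ℓ c ∈
      (Ideal.span {(ℓ : ℤ_[ℓ]) ^ ((zlToPadicInt ℓ c).valuation + 1)} : Ideal ℤ_[ℓ]) := by
    rw [Ideal.mem_span_singleton]
    refine ⟨zlToPadicInt ℓ y, ?_⟩
    conv_lhs => rw [hy]
    rw [map_mul, map_pow, map_natCast]
  have h2 := (PadicInt.mem_span_pow_iff_le_valuation _ hc' _).mp h1
  omega

/-- The coefficientwise inclusion `ℤ_(ℓ)((q)) → ℚ((q))`. -/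
def gaussIota : LaurentSeries ↥(GaloisRep.ratLocalizedAt ℓ) →+* LaurentSeries ℚ :=
  coeffMap (GaloisRep.ratLocalizedAt ℓ).subtype

/-- The coefficientwise reduction `ℤ_(ℓ)((q)) → 𝔽_ℓ((q))`. -/
def gaussRho : LaurentSeries ↥(GaloisRep.ratLocalizedAt ℓ) →+* LaurentSeries (ZMod ℓ) :=
  coeffMap (resZl ℓ)

@[simp] theorem gaussIota_coeff (a : LaurentSeries ↥(GaloisRep.ratLocalizedAt ℓ)) (k : ℤ) :
    (gaussIota ℓ a).coeff k = ((a.coeff k : ↥(GaloisRep.ratLocalizedAt ℓ)) : ℚ) := rfl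

@[simp] theorem gaussRho_coeff (a : LaurentSeries ↥(GaloisRep.ratLocalizedAt ℓ)) (k : ℤ) :
    (gaussRho ℓ a).coeff k = resZl ℓ (a.coeff k) := rfl

theorem gaussIota_injective : Function.Injective (gaussIota ℓ) := by
  intro a b h
  refine HahnSeries.ext (funext fun k => ?_)
  have h1 := congrArg (fun x : LaurentSeries ℚ => x.coeff k) h
  simp only [gaussIota_coeff] at h1
  exact Subtype.ext h1

theorem gaussIota_eq_zero_iff (a : LaurentSeries ↥(GaloisRep.ratLocalizedAt ℓ)) :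
    gaussIota ℓ a = 0 ↔ a = 0 :=
  ⟨fun h => gaussIota_injective ℓ (by rw [h, map_zero]), fun h => by rw [h, map_zero]⟩

theorem mem_range_gaussIota_iff (x : LaurentSeries ℚ) :
    x ∈ Set.range (gaussIota ℓ) ↔ ∀ k, x.coeff k ∈ GaloisRep.ratLocalizedAt ℓ := by
  constructor
  · rintro ⟨a, rfl⟩ k
    exact (a.coeff k).2
  · intro h
    have hsupp : (Function.support fun k : ℤ =>
        (⟨x.coeff k, h k⟩ : ↥(GaloisRep.ratLocalizedAt ℓ))) = x.support := by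
      ext k
      simp only [Function.mem_support, ne_eq, HahnSeries.mem_support]
      constructor
      · intro h1 h2
        exact h1 (Subtype.ext h2)
      · intro h1 h2
        exact h1 (congrArg Subtype.val h2)
    refine ⟨⟨fun k => ⟨x.coeff k, h k⟩, by rw [hsupp]; exact x.isPWO_support⟩, ?_⟩
    ext k
    rfl

theorem natCast_laurentSeries_zmod : ((ℓ : ℕ) : LaurentSeries (ZMod ℓ)) = 0 := by
  rw [← map_natCast (algebraMap (ZMod ℓ) (LaurentSeries (ZMod ℓ))), ZMod.natCast_self, map_zero]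

theorem gaussRho_natCast : gaussRho ℓ (ℓ : LaurentSeries ↥(GaloisRep.ratLocalizedAt ℓ)) = 0 := by
  rw [map_natCast, natCast_laurentSeries_zmod]

theorem coeff_natCast_mul {A : Type*} [CommRing A] (n : ℕ) (x : LaurentSeries A) (k : ℤ) :
    ((n : LaurentSeries A) * x).coeff k = (n : A) * x.coeff k := by
  have h : (n : LaurentSeries A) = HahnSeries.C (n : A) := by
    rw [map_natCast]
  rw [h, HahnSeries.C_mul_eq_smul, HahnSeries.coeff_smul, smul_eq_mul]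

theorem coeff_natCast_pow_mul {A : Type*} [CommRing A] (n m : ℕ) (x : LaurentSeries A) (k : ℤ) :
    ((n : LaurentSeries A) ^ m * x).coeff k = (n : A) ^ m * x.coeff k := by
  have h : (n : LaurentSeries A) ^ m = ((n ^ m : ℕ) : LaurentSeries A) := by push_cast; rfl
  rw [h, coeff_natCast_mul]
  push_cast
  rfl

theorem gaussRho_eq_zero_iff (a : LaurentSeries ↥(GaloisRep.ratLocalizedAt ℓ)) :
    gaussRho ℓ a = 0 ↔
      ∃ a' : LaurentSeries ↥(GaloisRep.ratLocalizedAt ℓ),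
        a = (ℓ : LaurentSeries ↥(GaloisRep.ratLocalizedAt ℓ)) * a' := by
  constructor
  · intro h
    have hk : ∀ k, ∃ y : ↥(GaloisRep.ratLocalizedAt ℓ),
        a.coeff k = (ℓ : ↥(GaloisRep.ratLocalizedAt ℓ)) * y := by
      intro k
      rw [← resZl_eq_zero_iff, ← gaussRho_coeff, h]
      rfl
    choose y hy using hk
    have hsupp : (Function.support y) ⊆ a.support := by
      intro k hk1
      simp only [Function.mem_support, ne_eq, HahnSeries.mem_support] at hk1 ⊢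
      intro h0
      rw [hy k] at h0
      rcases mul_eq_zero.mp h0 with h1 | h1
      · have h2 : ((ℓ : ↥(GaloisRep.ratLocalizedAt ℓ)) : ℚ) = 0 := by rw [h1]; rfl
        have h3 : ((ℓ : ↥(GaloisRep.ratLocalizedAt ℓ)) : ℚ) = (ℓ : ℚ) := by push_cast; rfl
        rw [h3] at h2
        exact (Fact.out : ℓ.Prime).ne_zero (by exact_mod_cast h2)
      · exact hk1 h1
    refine ⟨⟨y, a.isPWO_support.mono hsupp⟩, ?_⟩
    refine HahnSeries.ext (funext fun k => ?_)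
    rw [coeff_natCast_mul]
    exact hy k
  · rintro ⟨a', rfl⟩
    rw [map_mul, gaussRho_natCast, zero_mul]

/-- Every nonzero element of `ℤ_(ℓ)((q))` is a power of `ℓ` times an element with nonzero
reduction. -/
theorem exists_pow_mul_gaussRho_ne_zero (a : LaurentSeries ↥(GaloisRep.ratLocalizedAt ℓ))
    (ha : a ≠ 0) :
    ∃ (m : ℕ) (a' : LaurentSeries ↥(GaloisRep.ratLocalizedAt ℓ)),
      a = (ℓ : LaurentSeries ↥(GaloisRep.ratLocalizedAt ℓ)) ^ m * a' ∧ gaussRho ℓ a' ≠ 0 := by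
  by_contra hcon
  push Not at hcon
  have hall : ∀ m : ℕ, ∃ a' : LaurentSeries ↥(GaloisRep.ratLocalizedAt ℓ),
      a = (ℓ : LaurentSeries ↥(GaloisRep.ratLocalizedAt ℓ)) ^ m * a' := by
    intro m
    induction m with
    | zero => exact ⟨a, by rw [pow_zero, one_mul]⟩
    | succ m ih =>
      obtain ⟨a', ha'⟩ := ih
      obtain ⟨a'', ha''⟩ := (gaussRho_eq_zero_iff ℓ a').mp (hcon m a' ha')
      exact ⟨a'', by rw [ha', ha'', pow_succ, mul_assoc]⟩
  apply ha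
  refine HahnSeries.ext (funext fun k => ?_)
  show a.coeff k = 0
  apply eq_zero_of_forall_pow_dvd
  intro m
  obtain ⟨a', ha'⟩ := hall m
  refine ⟨a'.coeff k, ?_⟩
  conv_lhs => rw [ha']
  rw [coeff_natCast_pow_mul]

/-- The Gauss valuation ring `{ι a / ι b | ρ b ≠ 0}` inside `ℚ((q))`. -/
def gaussRing : Subring (LaurentSeries ℚ) where
  carrier := {x | ∃ a b : LaurentSeries ↥(GaloisRep.ratLocalizedAt ℓ),
    gaussRho ℓ b ≠ 0 ∧ x * gaussIota ℓ b = gaussIota ℓ a}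
  mul_mem' := by
    rintro x y ⟨a, b, hb, hx⟩ ⟨c, d, hd, hy⟩
    refine ⟨a * c, b * d, ?_, ?_⟩
    · rw [map_mul]
      exact mul_ne_zero hb hd
    · rw [map_mul, map_mul, ← hx, ← hy]
      ring
  one_mem' := ⟨1, 1, by rw [map_one]; exact one_ne_zero, by rw [map_one, mul_one]⟩
  add_mem' := by
    rintro x y ⟨a, b, hb, hx⟩ ⟨c, d, hd, hy⟩
    refine ⟨a * d + c * b, b * d, ?_, ?_⟩
    · rw [map_mul]
      exact mul_ne_zero hb hd
    · rw [map_mul, map_add, map_mul, map_mul, ← hx, ← hy]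
      ring
  zero_mem' := ⟨0, 1, by rw [map_one]; exact one_ne_zero, by rw [map_zero, zero_mul]⟩
  neg_mem' := by
    rintro x ⟨a, b, hb, hx⟩
    exact ⟨-a, b, hb, by rw [map_neg, ← hx, neg_mul]⟩

theorem mem_gaussRing_iff (x : LaurentSeries ℚ) :
    x ∈ gaussRing ℓ ↔ ∃ a b : LaurentSeries ↥(GaloisRep.ratLocalizedAt ℓ),
      gaussRho ℓ b ≠ 0 ∧ x * gaussIota ℓ b = gaussIota ℓ a := Iff.rfl

theorem gaussIota_ne_zero_of_gaussRho_ne_zero {b : LaurentSeries ↥(GaloisRep.ratLocalizedAt ℓ)}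
    (hb : gaussRho ℓ b ≠ 0) : gaussIota ℓ b ≠ 0 := by
  intro h
  rw [gaussIota_eq_zero_iff] at h
  exact hb (by rw [h, map_zero])

theorem gaussIota_mem_gaussRing (a : LaurentSeries ↥(GaloisRep.ratLocalizedAt ℓ)) :
    gaussIota ℓ a ∈ gaussRing ℓ :=
  ⟨a, 1, by rw [map_one]; exact one_ne_zero, by rw [map_one, mul_one]⟩

theorem natCast_laurentSeries_rat_ne_zero {n : ℕ} (hn : n ≠ 0) :
    ((n : ℕ) : LaurentSeries ℚ) ≠ 0 := by
  intro h
  rw [← map_natCast (algebraMap ℚ (LaurentSeries ℚ)), map_eq_zero] at h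
  exact hn (by exact_mod_cast h)

theorem gaussRho_div_eq {x : LaurentSeries ℚ}
    {a b a₀ b₀ : LaurentSeries ↥(GaloisRep.ratLocalizedAt ℓ)}
    (hb : gaussRho ℓ b ≠ 0) (hb₀ : gaussRho ℓ b₀ ≠ 0)
    (h : x * gaussIota ℓ b = gaussIota ℓ a) (h₀ : x * gaussIota ℓ b₀ = gaussIota ℓ a₀) :
    gaussRho ℓ a₀ / gaussRho ℓ b₀ = gaussRho ℓ a / gaussRho ℓ b := by
  rw [div_eq_div_iff hb₀ hb, ← map_mul, ← map_mul]
  congr 1
  apply gaussIota_injective ℓ
  rw [map_mul, map_mul, ← h₀, ← h]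
  ring

/-- The reduction map on the Gauss valuation ring, as a function. -/
def gaussRedFun (x : gaussRing ℓ) : LaurentSeries (ZMod ℓ) :=
  gaussRho ℓ x.2.choose / gaussRho ℓ x.2.choose_spec.choose

theorem gaussRedFun_eq (x : gaussRing ℓ) (a b : LaurentSeries ↥(GaloisRep.ratLocalizedAt ℓ))
    (hb : gaussRho ℓ b ≠ 0) (h : (x : LaurentSeries ℚ) * gaussIota ℓ b = gaussIota ℓ a) :
    gaussRedFun ℓ x = gaussRho ℓ a / gaussRho ℓ b :=
  gaussRho_div_eq ℓ hb x.2.choose_spec.choose_spec.1 h x.2.choose_spec.choose_spec.2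

/-- The reduction map `gaussRing ℓ →+* 𝔽_ℓ((q))`. -/
def gaussRed : gaussRing ℓ →+* LaurentSeries (ZMod ℓ) where
  toFun := gaussRedFun ℓ
  map_one' := by
    rw [gaussRedFun_eq ℓ 1 1 1 (by rw [map_one]; exact one_ne_zero)
      (by rw [map_one, mul_one]; rfl), map_one, div_one]
  map_mul' x y := by
    obtain ⟨a, b, hb, hx⟩ := x.2
    obtain ⟨c, d, hd, hy⟩ := y.2
    rw [gaussRedFun_eq ℓ x a b hb hx, gaussRedFun_eq ℓ y c d hd hy,
      gaussRedFun_eq ℓ (x * y) (a * c) (b * d) (by rw [map_mul]; exact mul_ne_zero hb hd)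
        (by rw [map_mul, map_mul, ← hx, ← hy]; push_cast; ring),
      map_mul, map_mul, mul_div_mul_comm]
  map_zero' := by
    rw [gaussRedFun_eq ℓ 0 0 1 (by rw [map_one]; exact one_ne_zero)
      (by rw [map_zero, map_one, mul_one]; rfl), map_zero, zero_div]
  map_add' x y := by
    obtain ⟨a, b, hb, hx⟩ := x.2
    obtain ⟨c, d, hd, hy⟩ := y.2
    rw [gaussRedFun_eq ℓ x a b hb hx, gaussRedFun_eq ℓ y c d hd hy,
      gaussRedFun_eq ℓ (x + y) (a * d + b * c) (b * d) (by rw [map_mul]; exact mul_ne_zero hb hd)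
        (by rw [map_mul, map_add, map_mul, map_mul, ← hx, ← hy]; push_cast; ring),
      map_mul, map_add, map_mul, map_mul, div_add_div _ _ hb hd]

theorem gaussRed_eq (x : gaussRing ℓ) (a b : LaurentSeries ↥(GaloisRep.ratLocalizedAt ℓ))
    (hb : gaussRho ℓ b ≠ 0) (h : (x : LaurentSeries ℚ) * gaussIota ℓ b = gaussIota ℓ a) :
    gaussRed ℓ x = gaussRho ℓ a / gaussRho ℓ b :=
  gaussRedFun_eq ℓ x a b hb h

theorem gaussRed_gaussIota (a : LaurentSeries ↥(GaloisRep.ratLocalizedAt ℓ)) :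
    gaussRed ℓ ⟨gaussIota ℓ a, gaussIota_mem_gaussRing ℓ a⟩ = gaussRho ℓ a := by
  rw [gaussRed_eq ℓ _ a 1 (by rw [map_one]; exact one_ne_zero) (by rw [map_one, mul_one]),
    map_one, div_one]

theorem natCast_mem_gaussRing (n : ℕ) : (n : LaurentSeries ℚ) ∈ gaussRing ℓ :=
  natCast_mem _ n

/-- The kernel of the reduction map is generated by `ℓ`. -/
theorem gaussRed_eq_zero_iff (x : gaussRing ℓ) :
    gaussRed ℓ x = 0 ↔ ∃ y : gaussRing ℓ, x = (ℓ : gaussRing ℓ) * y := by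
  constructor
  · intro h
    obtain ⟨a, b, hb, hx⟩ := x.2
    rw [gaussRed_eq ℓ x a b hb hx, div_eq_zero_iff] at h
    rcases h with h | h
    · obtain ⟨a', ha'⟩ := (gaussRho_eq_zero_iff ℓ a).mp h
      have hℓ : ((ℓ : ℕ) : LaurentSeries ℚ) ≠ 0 :=
        natCast_laurentSeries_rat_ne_zero (Fact.out : ℓ.Prime).ne_zero
      have hy : (x : LaurentSeries ℚ) / (ℓ : LaurentSeries ℚ) ∈ gaussRing ℓ := by
        refine ⟨a', b, hb, ?_⟩
        rw [div_mul_eq_mul_div, hx, ha', map_mul, map_natCast]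
        field_simp
      refine ⟨⟨_, hy⟩, ?_⟩
      apply Subtype.ext
      push_cast
      field_simp
    · exact absurd h hb
  · rintro ⟨y, rfl⟩
    rw [map_mul, map_natCast, natCast_laurentSeries_zmod, zero_mul]

/-- Elements of the Gauss valuation ring with nonzero reduction are units. -/
theorem inv_mem_gaussRing {x : gaussRing ℓ} (hx : gaussRed ℓ x ≠ 0) :
    (x : LaurentSeries ℚ)⁻¹ ∈ gaussRing ℓ := by
  obtain ⟨a, b, hb, hab⟩ := x.2
  rw [gaussRed_eq ℓ x a b hb hab] at hx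
  have ha : gaussRho ℓ a ≠ 0 := fun h => hx (by rw [h, zero_div])
  have hb' := gaussIota_ne_zero_of_gaussRho_ne_zero ℓ hb
  have ha' := gaussIota_ne_zero_of_gaussRho_ne_zero ℓ ha
  have hx0 : (x : LaurentSeries ℚ) ≠ 0 := by
    intro h0
    rw [h0, zero_mul] at hab
    exact ha' hab.symm
  refine ⟨b, a, ha, ?_⟩
  rw [← hab]
  field_simp

/-- The fraction field of `ℤ_(ℓ)((q))` inside `ℚ((q))`. -/
def gaussFrac : IntermediateField ℚ (LaurentSeries ℚ) where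
  carrier := {x | ∃ a b : LaurentSeries ↥(GaloisRep.ratLocalizedAt ℓ),
    b ≠ 0 ∧ x * gaussIota ℓ b = gaussIota ℓ a}
  mul_mem' := by
    rintro x y ⟨a, b, hb, hx⟩ ⟨c, d, hd, hy⟩
    refine ⟨a * c, b * d, mul_ne_zero hb hd, ?_⟩
    rw [map_mul, map_mul, ← hx, ← hy]
    ring
  one_mem' := ⟨1, 1, one_ne_zero, by rw [map_one, mul_one]⟩
  add_mem' := by
    rintro x y ⟨a, b, hb, hx⟩ ⟨c, d, hd, hy⟩
    refine ⟨a * d + c * b, b * d, mul_ne_zero hb hd, ?_⟩
    rw [map_mul, map_add, map_mul, map_mul, ← hx, ← hy]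
    ring
  zero_mem' := ⟨0, 1, one_ne_zero, by rw [map_zero, zero_mul]⟩
  algebraMap_mem' := by
    intro c
    have hden : ((c.den : ℕ) : LaurentSeries ↥(GaloisRep.ratLocalizedAt ℓ)) ≠ 0 := by
      intro h
      have h1 := congrArg (gaussIota ℓ) h
      rw [map_natCast, map_zero] at h1
      exact natCast_laurentSeries_rat_ne_zero c.den_nz h1
    refine ⟨(c.num : LaurentSeries ↥(GaloisRep.ratLocalizedAt ℓ)),
      (c.den : LaurentSeries ↥(GaloisRep.ratLocalizedAt ℓ)), hden, ?_⟩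
    rw [map_natCast, map_intCast]
    have h2 : (c : ℚ) * (c.den : ℚ) = (c.num : ℚ) := Rat.mul_den_eq_num c
    have h3 := congrArg (algebraMap ℚ (LaurentSeries ℚ)) h2
    rw [map_mul, map_natCast, map_intCast] at h3
    exact h3
  inv_mem' := by
    rintro x ⟨a, b, hb, hx⟩
    by_cases ha : a = 0
    · have hx0 : x = 0 := by
        rw [ha, map_zero] at hx
        rcases mul_eq_zero.mp hx with h | h
        · exact h
        · exact absurd ((gaussIota_eq_zero_iff ℓ b).mp h) hb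
      exact ⟨0, 1, one_ne_zero, by rw [hx0, inv_zero, zero_mul, map_zero]⟩
    · have ha' : gaussIota ℓ a ≠ 0 := fun h => ha ((gaussIota_eq_zero_iff ℓ a).mp h)
      have hb' : gaussIota ℓ b ≠ 0 := fun h => hb ((gaussIota_eq_zero_iff ℓ b).mp h)
      have hx0 : x ≠ 0 := by
        intro h0
        rw [h0, zero_mul] at hx
        exact ha' hx.symm
      refine ⟨b, a, ha, ?_⟩
      rw [← hx]
      field_simp

theorem gaussIota_mem_gaussFrac (a : LaurentSeries ↥(GaloisRep.ratLocalizedAt ℓ)) :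
    gaussIota ℓ a ∈ gaussFrac ℓ :=
  ⟨a, 1, one_ne_zero, by rw [map_one, mul_one]⟩

/-- Every nonzero element of the fraction field is a power of `ℓ` times a unit of the Gauss
valuation ring. -/
theorem exists_zpow_mul_of_mem_gaussFrac {x : LaurentSeries ℚ} (hx : x ∈ gaussFrac ℓ)
    (hx0 : x ≠ 0) :
    ∃ (m : ℤ) (u : gaussRing ℓ), gaussRed ℓ u ≠ 0 ∧
      x = (ℓ : LaurentSeries ℚ) ^ m * (u : LaurentSeries ℚ) := by
  obtain ⟨a, b, hb, hab⟩ := hx
  have ha : a ≠ 0 := by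
    intro h
    rw [h, map_zero] at hab
    rcases mul_eq_zero.mp hab with h1 | h1
    · exact hx0 h1
    · exact hb ((gaussIota_eq_zero_iff ℓ b).mp h1)
  obtain ⟨m₁, a', rfl, ha'⟩ := exists_pow_mul_gaussRho_ne_zero ℓ a ha
  obtain ⟨m₂, b', rfl, hb'⟩ := exists_pow_mul_gaussRho_ne_zero ℓ b hb
  have hℓ : ((ℓ : ℕ) : LaurentSeries ℚ) ≠ 0 :=
    natCast_laurentSeries_rat_ne_zero (Fact.out : ℓ.Prime).ne_zero
  have hb'' := gaussIota_ne_zero_of_gaussRho_ne_zero ℓ hb'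
  have hu : gaussIota ℓ a' / gaussIota ℓ b' ∈ gaussRing ℓ :=
    ⟨a', b', hb', by field_simp⟩
  refine ⟨(m₁ : ℤ) - m₂, ⟨_, hu⟩, ?_, ?_⟩
  · rw [gaussRed_eq ℓ _ a' b' hb' (by field_simp)]
    exact div_ne_zero ha' hb'
  · rw [map_mul, map_mul, map_pow, map_pow, map_natCast] at hab
    rw [zpow_sub₀ hℓ, zpow_natCast, zpow_natCast]
    field_simp
    linear_combination hab

end Fermat.Agent.H66
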