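import Mathlib
import Fermat.Prelude.Def_ModularCurve_IgusaScheme
import Fermat.Prelude.Def_ModularCurve_X0ModL
import Fermat.Agent.H66.IgusaGauss

/-!
# The Gauss valuation ring of the modular function field (P-IGUSA, IG-C, box [C1], part 2)

`F = modularFunctionFieldFull N ⊆ ℚ((q))` lies in the fraction field of `ℤ_(ℓ)((q))`.
`gaussO N ℓ = F ∩ gaussRing ℓ` is a valuation ring of `F` with uniformizer `ℓ` and reduction map
`gaussRedF N ℓ : gaussO N ℓ →+* 𝔽_ℓ((q))`.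
-/

set_option autoImplicit false
set_option linter.unusedSectionVars false

noncomputable section

namespace Fermat.Agent.H66

open ModularCurve ModularCurve.IgusaScheme

variable (N : ℕ) [NeZero N] (ℓ : ℕ) [Fact ℓ.Prime]

theorem gaussIota_jqModC : gaussIota ℓ (jqModC ↥(GaloisRep.ratLocalizedAt ℓ)) = jq := by
  rw [gaussIota, coeffMap_jqModC, jqModC_rat]

theorem gaussRho_jqModC :
    gaussRho ℓ (jqModC ↥(GaloisRep.ratLocalizedAt ℓ)) = jqModC (ZMod ℓ) := by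
  rw [gaussRho, coeffMap_jqModC]

theorem gaussIota_qExpand_jqModC (d : ℕ) [NeZero d] :
    gaussIota ℓ (qExpand ↥(GaloisRep.ratLocalizedAt ℓ) d (jqModC ↥(GaloisRep.ratLocalizedAt ℓ))) =
      qExpand ℚ d jq := by
  rw [gaussIota, coeffMap_qExpand, coeffMap_jqModC, jqModC_rat]

theorem gaussRho_qExpand_jqModC (d : ℕ) [NeZero d] :
    gaussRho ℓ (qExpand ↥(GaloisRep.ratLocalizedAt ℓ) d (jqModC ↥(GaloisRep.ratLocalizedAt ℓ))) =
      qExpand (ZMod ℓ) d (jqModC (ZMod ℓ)) := by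
  rw [gaussRho, coeffMap_qExpand, coeffMap_jqModC]

/-- The modular function field lies in the fraction field of `ℤ_(ℓ)((q))`. -/
theorem modularFunctionFieldFull_le_gaussFrac : modularFunctionFieldFull N ≤ gaussFrac ℓ := by
  rw [modularFunctionFieldFull, IntermediateField.adjoin_le_iff]
  rintro x ⟨d, hne, -, rfl⟩
  have := hne
  rw [← gaussIota_qExpand_jqModC ℓ d]
  exact gaussIota_mem_gaussFrac ℓ _

/-- The Gauss valuation ring of the modular function field `F`. -/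
def gaussO : Subring ↥(modularFunctionFieldFull N) :=
  (gaussRing ℓ).comap (algebraMap ↥(modularFunctionFieldFull N) (LaurentSeries ℚ))

theorem mem_gaussO_iff (x : ↥(modularFunctionFieldFull N)) :
    x ∈ gaussO N ℓ ↔ (x : LaurentSeries ℚ) ∈ gaussRing ℓ := Iff.rfl

/-- The reduction map on the Gauss valuation ring of `F`. -/
def gaussRedF : ↥(gaussO N ℓ) →+* LaurentSeries (ZMod ℓ) :=
  (gaussRed ℓ).comp
    (RingHom.codRestrict
      ((algebraMap ↥(modularFunctionFieldFull N) (LaurentSeries ℚ)).comp (gaussO N ℓ).subtype)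
      (gaussRing ℓ) (fun x => x.2))

theorem gaussRedF_apply (x : ↥(gaussO N ℓ)) :
    gaussRedF N ℓ x = gaussRed ℓ ⟨((x : ↥(modularFunctionFieldFull N)) : LaurentSeries ℚ), x.2⟩ :=
  rfl

/-- `hunif` of `H91.valuation_chart_abstract`. -/
theorem gaussO_unif (x : ↥(modularFunctionFieldFull N)) (hx : x ≠ 0) :
    ∃ (m : ℤ) (u : ↥(modularFunctionFieldFull N)), u ∈ gaussO N ℓ ∧ u⁻¹ ∈ gaussO N ℓ ∧
      x = (ℓ : ↥(modularFunctionFieldFull N)) ^ m * u := by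
  have hx' : (x : LaurentSeries ℚ) ≠ 0 := fun h => hx (Subtype.ext h)
  obtain ⟨m, u, hu, hxu⟩ :=
    exists_zpow_mul_of_mem_gaussFrac ℓ (modularFunctionFieldFull_le_gaussFrac N ℓ x.2) hx'
  have hℓ : ((ℓ : ℕ) : LaurentSeries ℚ) ≠ 0 :=
    natCast_laurentSeries_rat_ne_zero (Fact.out : ℓ.Prime).ne_zero
  have hℓF : ((ℓ : ℕ) : LaurentSeries ℚ) ∈ modularFunctionFieldFull N := natCast_mem _ ℓ
  have huF : (u : LaurentSeries ℚ) ∈ modularFunctionFieldFull N := by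
    have h1 : (u : LaurentSeries ℚ) = ((ℓ : LaurentSeries ℚ) ^ m)⁻¹ * (x : LaurentSeries ℚ) := by
      rw [hxu, ← mul_assoc, inv_mul_cancel₀ (zpow_ne_zero _ hℓ), one_mul]
    rw [h1]
    exact mul_mem (inv_mem (zpow_mem hℓF m)) x.2
  refine ⟨m, ⟨u, huF⟩, u.2, inv_mem_gaussRing ℓ hu, ?_⟩
  apply Subtype.ext
  rw [hxu]
  push_cast
  rfl

/-- `hunif`, with nonvanishing of the reduction. -/
theorem gaussO_unif' (x : ↥(modularFunctionFieldFull N)) (hx : x ≠ 0) :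
    ∃ (m : ℤ) (u : ↥(gaussO N ℓ)), gaussRedF N ℓ u ≠ 0 ∧
      x = (ℓ : ↥(modularFunctionFieldFull N)) ^ m * (u : ↥(modularFunctionFieldFull N)) := by
  have hx' : (x : LaurentSeries ℚ) ≠ 0 := fun h => hx (Subtype.ext h)
  obtain ⟨m, u, hu, hxu⟩ :=
    exists_zpow_mul_of_mem_gaussFrac ℓ (modularFunctionFieldFull_le_gaussFrac N ℓ x.2) hx'
  have hℓ : ((ℓ : ℕ) : LaurentSeries ℚ) ≠ 0 :=
    natCast_laurentSeries_rat_ne_zero (Fact.out : ℓ.Prime).ne_zero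
  have hℓF : ((ℓ : ℕ) : LaurentSeries ℚ) ∈ modularFunctionFieldFull N := natCast_mem _ ℓ
  have huF : (u : LaurentSeries ℚ) ∈ modularFunctionFieldFull N := by
    have h1 : (u : LaurentSeries ℚ) = ((ℓ : LaurentSeries ℚ) ^ m)⁻¹ * (x : LaurentSeries ℚ) := by
      rw [hxu, ← mul_assoc, inv_mul_cancel₀ (zpow_ne_zero _ hℓ), one_mul]
    rw [h1]
    exact mul_mem (inv_mem (zpow_mem hℓF m)) x.2
  refine ⟨m, ⟨⟨u, huF⟩, u.2⟩, hu, ?_⟩
  apply Subtype.ext
  rw [hxu]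
  push_cast
  rfl

/-- `hℓO` of `H91.valuation_chart_abstract`. -/
theorem natCast_mem_gaussO (n : ℕ) : (n : ↥(modularFunctionFieldFull N)) ∈ gaussO N ℓ :=
  natCast_mem _ n

/-- `hRedℓ` of `H91.valuation_chart_abstract`. -/
theorem gaussRedF_natCast_self :
    gaussRedF N ℓ ⟨(ℓ : ↥(modularFunctionFieldFull N)), natCast_mem_gaussO N ℓ ℓ⟩ = 0 := by
  have h : (⟨(ℓ : ↥(modularFunctionFieldFull N)), natCast_mem_gaussO N ℓ ℓ⟩ : ↥(gaussO N ℓ)) =
      ((ℓ : ℕ) : ↥(gaussO N ℓ)) := rfl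
  rw [h, map_natCast, natCast_laurentSeries_zmod]

/-- `hker` of `H91.valuation_chart_abstract`. -/
theorem gaussO_ker (x : ↥(gaussO N ℓ)) (hx : gaussRedF N ℓ x = 0) :
    (x : ↥(modularFunctionFieldFull N)) * (ℓ : ↥(modularFunctionFieldFull N))⁻¹ ∈ gaussO N ℓ := by
  rw [gaussRedF_apply, gaussRed_eq_zero_iff] at hx
  obtain ⟨y, hy⟩ := hx
  have hℓ : ((ℓ : ℕ) : LaurentSeries ℚ) ≠ 0 :=
    natCast_laurentSeries_rat_ne_zero (Fact.out : ℓ.Prime).ne_zero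
  have hy' : ((x : ↥(modularFunctionFieldFull N)) : LaurentSeries ℚ) =
      (ℓ : LaurentSeries ℚ) * (y : LaurentSeries ℚ) := congrArg Subtype.val hy
  rw [mem_gaussO_iff]
  have h1 : (((x : ↥(modularFunctionFieldFull N)) * (ℓ : ↥(modularFunctionFieldFull N))⁻¹ :
      ↥(modularFunctionFieldFull N)) : LaurentSeries ℚ) = (y : LaurentSeries ℚ) := by
    push_cast
    rw [hy']
    field_simp
  rw [h1]
  exact y.2

/-- The kernel of the reduction map is generated by `ℓ`. -/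
theorem gaussRedF_eq_zero_iff (x : ↥(gaussO N ℓ)) :
    gaussRedF N ℓ x = 0 ↔ ∃ y : ↥(gaussO N ℓ), x = (ℓ : ↥(gaussO N ℓ)) * y := by
  constructor
  · intro hx
    refine ⟨⟨_, gaussO_ker N ℓ x hx⟩, ?_⟩
    apply Subtype.ext
    have hℓ : ((ℓ : ℕ) : ↥(modularFunctionFieldFull N)) ≠ 0 :=
      Nat.cast_ne_zero.mpr (Fact.out : ℓ.Prime).ne_zero
    push_cast
    field_simp
  · rintro ⟨y, rfl⟩
    rw [map_mul, map_natCast, natCast_laurentSeries_zmod, zero_mul]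

/-- Elements with nonzero reduction are units. -/
theorem inv_mem_gaussO {x : ↥(gaussO N ℓ)} (hx : gaussRedF N ℓ x ≠ 0) :
    (x : ↥(modularFunctionFieldFull N))⁻¹ ∈ gaussO N ℓ := by
  rw [mem_gaussO_iff]
  push_cast
  exact inv_mem_gaussRing ℓ (x := ⟨_, x.2⟩) hx

theorem gaussRedF_inv {x : ↥(gaussO N ℓ)} (hx : gaussRedF N ℓ x ≠ 0) :
    gaussRedF N ℓ ⟨(x : ↥(modularFunctionFieldFull N))⁻¹, inv_mem_gaussO N ℓ hx⟩ =
      (gaussRedF N ℓ x)⁻¹ := by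
  have hx0 : (x : ↥(modularFunctionFieldFull N)) ≠ 0 := by
    intro h
    apply hx
    have : x = 0 := Subtype.ext h
    rw [this, map_zero]
  have h1 : (⟨(x : ↥(modularFunctionFieldFull N))⁻¹, inv_mem_gaussO N ℓ hx⟩ : ↥(gaussO N ℓ)) * x
      = 1 := by
    apply Subtype.ext
    exact inv_mul_cancel₀ hx0
  have h2 := congrArg (gaussRedF N ℓ) h1
  rw [map_mul, map_one] at h2
  exact eq_inv_of_mul_eq_one_left h2

/-- `hunit` of `H27.exists_linearIndependent_red`. -/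
theorem gaussO_unit (x : ↥(gaussO N ℓ)) (hx : gaussRedF N ℓ x ≠ 0) :
    ∃ y : ↥(gaussO N ℓ), gaussRedF N ℓ y = (gaussRedF N ℓ x)⁻¹ :=
  ⟨_, gaussRedF_inv N ℓ hx⟩

/-- Coefficientwise `ℓ`-integral elements of `F` lie in the Gauss valuation ring. -/
theorem mem_gaussO_of_eq_gaussIota {x : ↥(modularFunctionFieldFull N)}
    {a : LaurentSeries ↥(GaloisRep.ratLocalizedAt ℓ)} (h : (x : LaurentSeries ℚ) = gaussIota ℓ a) :
    x ∈ gaussO N ℓ := by
  rw [mem_gaussO_iff, h]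
  exact gaussIota_mem_gaussRing ℓ a

theorem gaussRedF_of_eq_gaussIota {x : ↥(modularFunctionFieldFull N)}
    {a : LaurentSeries ↥(GaloisRep.ratLocalizedAt ℓ)} (h : (x : LaurentSeries ℚ) = gaussIota ℓ a) :
    gaussRedF N ℓ ⟨x, mem_gaussO_of_eq_gaussIota N ℓ h⟩ = gaussRho ℓ a := by
  rw [gaussRedF_apply, ← gaussRed_gaussIota ℓ a]
  congr 1
  exact Subtype.ext h

/-- `hj` of `H27.exists_linearIndependent_red`. -/
theorem gaussO_hj (d : ℕ) [NeZero d] (hd : d ∣ N) :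
    ∃ x : ↥(gaussO N ℓ), gaussRedF N ℓ x = qExpand (ZMod ℓ) d (jqModC (ZMod ℓ)) := by
  have h : ((⟨qExpand ℚ d jq, jqd_mem_full N hd⟩ : ↥(modularFunctionFieldFull N)) :
      LaurentSeries ℚ) = gaussIota ℓ
        (qExpand ↥(GaloisRep.ratLocalizedAt ℓ) d (jqModC ↥(GaloisRep.ratLocalizedAt ℓ))) :=
    (gaussIota_qExpand_jqModC ℓ d).symm
  exact ⟨⟨_, mem_gaussO_of_eq_gaussIota N ℓ h⟩,
    (gaussRedF_of_eq_gaussIota N ℓ h).trans (gaussRho_qExpand_jqModC ℓ d)⟩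

theorem jFull_mem_gaussO : jFull N ∈ gaussO N ℓ :=
  mem_gaussO_of_eq_gaussIota N ℓ (x := jFull N) (gaussIota_jqModC ℓ).symm

theorem gaussRedF_jFull :
    gaussRedF N ℓ ⟨jFull N, jFull_mem_gaussO N ℓ⟩ = jqModC (ZMod ℓ) :=
  (gaussRedF_of_eq_gaussIota N ℓ (x := jFull N) (gaussIota_jqModC ℓ).symm).trans
    (gaussRho_jqModC ℓ)

theorem gaussRedF_jFull_ne_zero :
    gaussRedF N ℓ ⟨jFull N, jFull_mem_gaussO N ℓ⟩ ≠ 0 := by
  rw [gaussRedF_jFull]
  exact jqModC_ne_zero_of_nontrivial (ZMod ℓ)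

theorem jFull_inv_mem_gaussO : (jFull N)⁻¹ ∈ gaussO N ℓ :=
  inv_mem_gaussO N ℓ (x := ⟨jFull N, jFull_mem_gaussO N ℓ⟩) (gaussRedF_jFull_ne_zero N ℓ)

theorem gaussRedF_jFull_inv :
    gaussRedF N ℓ ⟨(jFull N)⁻¹, jFull_inv_mem_gaussO N ℓ⟩ = (jqModC (ZMod ℓ))⁻¹ := by
  rw [← gaussRedF_jFull N ℓ]
  exact gaussRedF_inv N ℓ (x := ⟨jFull N, jFull_mem_gaussO N ℓ⟩) (gaussRedF_jFull_ne_zero N ℓ)

theorem coe_algebraMap_zl (c : ↥(GaloisRep.ratLocalizedAt ℓ)) :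
    ((algebraMap ↥(GaloisRep.ratLocalizedAt ℓ) ↥(modularFunctionFieldFull N) c :
      ↥(modularFunctionFieldFull N)) : LaurentSeries ℚ) = gaussIota ℓ (HahnSeries.C c) := by
  have h1 : algebraMap ↥(GaloisRep.ratLocalizedAt ℓ) ↥(modularFunctionFieldFull N) c =
      algebraMap ℚ ↥(modularFunctionFieldFull N) (c : ℚ) := rfl
  rw [h1]
  have h2 : ((algebraMap ℚ ↥(modularFunctionFieldFull N) (c : ℚ) : ↥(modularFunctionFieldFull N)) :
      LaurentSeries ℚ) = algebraMap ℚ (LaurentSeries ℚ) (c : ℚ) := by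
    rw [eq_ratCast, eq_ratCast]
    rfl
  rw [h2, algebraMap_laurentSeries_eq_single]
  refine HahnSeries.ext (funext fun k => ?_)
  rw [gaussIota_coeff]
  by_cases hk : k = 0
  · subst hk
    simp
  · rw [HahnSeries.coeff_single_of_ne hk]
    simp [HahnSeries.C, HahnSeries.coeff_single_of_ne hk]

theorem gaussRho_C (c : ↥(GaloisRep.ratLocalizedAt ℓ)) :
    gaussRho ℓ (HahnSeries.C c) = algebraMap (ZMod ℓ) (LaurentSeries (ZMod ℓ)) (resZl ℓ c) := by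
  rw [algebraMap_laurentSeries_eq_single]
  refine HahnSeries.ext (funext fun k => ?_)
  rw [gaussRho_coeff]
  by_cases hk : k = 0
  · subst hk
    simp
  · rw [HahnSeries.coeff_single_of_ne hk]
    simp [HahnSeries.C, HahnSeries.coeff_single_of_ne hk]

/-- Constants of `ℤ_(ℓ)` lie in the Gauss valuation ring. -/
theorem algebraMap_mem_gaussO (c : ↥(GaloisRep.ratLocalizedAt ℓ)) :
    algebraMap ↥(GaloisRep.ratLocalizedAt ℓ) ↥(modularFunctionFieldFull N) c ∈ gaussO N ℓ :=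
  mem_gaussO_of_eq_gaussIota N ℓ (coe_algebraMap_zl N ℓ c)

theorem gaussRedF_algebraMap (c : ↥(GaloisRep.ratLocalizedAt ℓ)) :
    gaussRedF N ℓ ⟨_, algebraMap_mem_gaussO N ℓ c⟩ =
      algebraMap (ZMod ℓ) (LaurentSeries (ZMod ℓ)) (resZl ℓ c) :=
  (gaussRedF_of_eq_gaussIota N ℓ (coe_algebraMap_zl N ℓ c)).trans (gaussRho_C ℓ c)

/-- `B ≤ O` of `H91.valuation_chart_abstract`: the algebra generated over `ℤ_(ℓ)` by a subset of
the Gauss valuation ring lies in it. -/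
theorem adjoin_le_gaussO {S : Set ↥(modularFunctionFieldFull N)}
    (hS : S ⊆ (gaussO N ℓ : Set ↥(modularFunctionFieldFull N))) :
    (Algebra.adjoin ↥(GaloisRep.ratLocalizedAt ℓ) S).toSubring ≤ gaussO N ℓ := by
  intro x hx
  have hx' : x ∈ Algebra.adjoin ↥(GaloisRep.ratLocalizedAt ℓ) S := hx
  induction hx' using Algebra.adjoin_induction with
  | mem y hy => exact hS hy
  | algebraMap c => exact algebraMap_mem_gaussO N ℓ c
  | add y z _ _ hy hz => exact add_mem (hy ‹_›) (hz ‹_›)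
  | mul y z _ _ hy hz => exact mul_mem (hy ‹_›) (hz ‹_›)

theorem chartSet_subset_gaussO {S : Set ↥(modularFunctionFieldFull N)}
    (hS : S = {jFull N} ∨ S = {(jFull N)⁻¹} ∨ S = {jFull N, (jFull N)⁻¹}) :
    S ⊆ (gaussO N ℓ : Set ↥(modularFunctionFieldFull N)) := by
  rcases hS with rfl | rfl | rfl
  · rintro x rfl
    exact jFull_mem_gaussO N ℓ
  · rintro x rfl
    exact jFull_inv_mem_gaussO N ℓ
  · rintro x (rfl | rfl)
    · exact jFull_mem_gaussO N ℓ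
    · exact jFull_inv_mem_gaussO N ℓ

end Fermat.Agent.H66
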