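import Mathlib
import Fermat.Prelude.Def_ModularCurve_IgusaScheme
import Fermat.Prelude.Def_ModularCurve_X0ModL
import Fermat.Agent.H66.IgusaGauss
import Fermat.Agent.H66.IgusaGaussF
import Fermat.Agent.H91.IgusaCInterfaces

/-!
# The Gauss datum (P-IGUSA, IG-C, box [C1]): `Nonempty (H91.GaussDatum N ℓ)`
-/

set_option autoImplicit false
set_option linter.unusedSectionVars false

noncomputable section

namespace Fermat.Agent.H66

open ModularCurve ModularCurve.IgusaScheme

variable (N : ℕ) [NeZero N] (ℓ : ℕ) [Fact ℓ.Prime]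

theorem gaussIota_coeffMap_intCast (a : LaurentSeries ℤ) :
    gaussIota ℓ (coeffMap (Int.castRingHom ↥(GaloisRep.ratLocalizedAt ℓ)) a) =
      coeffMap (Int.castRingHom ℚ) a := by
  rw [gaussIota, coeffMap_coeffMap]
  exact coeffMap_congr (RingHom.ext_int _ _) a

theorem gaussRho_coeffMap_intCast (a : LaurentSeries ℤ) :
    gaussRho ℓ (coeffMap (Int.castRingHom ↥(GaloisRep.ratLocalizedAt ℓ)) a) =
      coeffMap (Int.castRingHom (ZMod ℓ)) a := by
  rw [gaussRho, coeffMap_coeffMap]
  exact coeffMap_congr (RingHom.ext_int _ _) a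

/-- The Gauss datum: the Gauss valuation ring of `ℚ((q))` with its reduction map. -/
def gaussDatumDef : Fermat.Agent.H91.GaussDatum N ℓ where
  O := gaussRing ℓ
  Red := gaussRed ℓ
  ker_Red := gaussRed_eq_zero_iff ℓ
  val := by
    intro x hx hx0
    obtain ⟨m, u, hu, hxu⟩ :=
      exists_zpow_mul_of_mem_gaussFrac ℓ (modularFunctionFieldFull_le_gaussFrac N ℓ hx) hx0
    exact ⟨m, u, u.2, inv_mem_gaussRing ℓ hu, hxu⟩
  Red_int := by
    intro a
    have h : coeffMap (Int.castRingHom ℚ) a ∈ gaussRing ℓ := by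
      rw [← gaussIota_coeffMap_intCast ℓ a]
      exact gaussIota_mem_gaussRing ℓ _
    refine ⟨h, ?_⟩
    rw [← gaussRho_coeffMap_intCast ℓ a, ← gaussRed_gaussIota]
    congr 1

/-- **[C1]** of the IG-C split. -/
theorem gaussDatum : Nonempty (Fermat.Agent.H91.GaussDatum N ℓ) := ⟨gaussDatumDef N ℓ⟩

@[simp] theorem gaussDatumDef_O : (gaussDatumDef N ℓ).O = gaussRing ℓ := rfl

@[simp] theorem gaussDatumDef_Red : (gaussDatumDef N ℓ).Red = gaussRed ℓ := rfl

end Fermat.Agent.H66
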