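import Mathlib

/-!
# Abstract duality `L = Hom(T, ℤ)` (P-S16, DUAL-UB)

`L` and `T` are finitely generated free `ℤ`-modules, `T` a commutative ring acting faithfully on
`L`, `α : L → ℤ` a linear form such that the pairing `(t, f) ↦ α (t f)` is non-degenerate on the
`L`-side and `L` is saturated for it.  Then every linear form on `T` is `t ↦ α (t f)` for some
`f ∈ L`.
-/

set_option autoImplicit false

namespace Fermat.Agent.H66

/-- An injective linear map between finitely generated free `ℤ`-modules of the same rank has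
torsion cokernel. -/
theorem exists_nsmul_mem_range_of_finrank_le {L H : Type*} [AddCommGroup L] [AddCommGroup H]
    [Module.Finite ℤ L] [Module.Finite ℤ H]
    (Φ : L →ₗ[ℤ] H) (hΦ : Function.Injective Φ)
    (hrank : Module.finrank ℤ H ≤ Module.finrank ℤ L) (x : H) :
    ∃ d : ℕ, 0 < d ∧ ∃ f : L, Φ f = d • x := by
  have h1 : Module.finrank ℤ (LinearMap.range Φ) = Module.finrank ℤ L :=
    LinearMap.finrank_range_of_inj hΦ
  have h2 := (LinearMap.range Φ).finrank_quotient_add_finrank
  have h3 : Module.finrank ℤ (LinearMap.range Φ) ≤ Module.finrank ℤ H :=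
    Submodule.finrank_le _
  have h4 : Module.finrank ℤ (H ⧸ LinearMap.range Φ) = 0 := by omega
  have h5 : Module.IsTorsion ℤ (H ⧸ LinearMap.range Φ) :=
    Module.finrank_eq_zero_iff_isTorsion.mp h4
  obtain ⟨a, ha⟩ := @h5 (Submodule.Quotient.mk x)
  have ha0 : (a : ℤ) ≠ 0 := nonZeroDivisors.coe_ne_zero a
  have h6 : (a : ℤ) • x ∈ LinearMap.range Φ := by
    rw [← Submodule.Quotient.mk_eq_zero, Submodule.Quotient.mk_smul]
    exact ha
  have h7 : ((a : ℤ).natAbs : ℤ) • x ∈ LinearMap.range Φ := by
    rcases Int.natAbs_eq (a : ℤ) with h | h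
    · rw [← h]
      exact h6
    · have h8 : ((a : ℤ).natAbs : ℤ) = -(a : ℤ) := by omega
      rw [h8, neg_smul]
      exact neg_mem h6
  obtain ⟨f, hf⟩ := h7
  refine ⟨(a : ℤ).natAbs, Int.natAbs_pos.mpr ha0, f, ?_⟩
  rw [hf, natCast_zsmul]

/-- **Abstract duality.** -/
theorem exists_rep_of_pairing {L T : Type*} [AddCommGroup L] [Module.Finite ℤ L]
    [Module.Free ℤ L] [CommRing T] [Module.Finite ℤ T] [Module.Free ℤ T]
    (act : T →+* Module.End ℤ L) (hact : Function.Injective act)
    (α : L →ₗ[ℤ] ℤ)
    (hP : ∀ f : L, (∀ t : T, α (act t f) = 0) → f = 0)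
    (hSat : ∀ (f : L) (d : ℕ), 0 < d → (∀ t : T, (d : ℤ) ∣ α (act t f)) → ∃ g : L, f = d • g)
    (lam : T →ₗ[ℤ] ℤ) : ∃ f : L, ∀ t, lam t = α (act t f) := by
  classical
  -- the two maps induced by the pairing
  let Φ : L →ₗ[ℤ] (T →ₗ[ℤ] ℤ) :=
    { toFun := fun f =>
        { toFun := fun t => α (act t f)
          map_add' := fun s t => by rw [map_add, LinearMap.add_apply, map_add]
          map_smul' := fun c t => by
            rw [map_zsmul, LinearMap.smul_apply, map_zsmul, RingHom.id_apply] }
      map_add' := fun f g => by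
        refine LinearMap.ext fun t => ?_
        show α (act t (f + g)) = α (act t f) + α (act t g)
        rw [map_add, map_add]
      map_smul' := fun c f => by
        refine LinearMap.ext fun t => ?_
        show α (act t (c • f)) = c • α (act t f)
        rw [map_zsmul, map_zsmul] }
  let Ψ : T →ₗ[ℤ] (L →ₗ[ℤ] ℤ) :=
    { toFun := fun t => α.comp (act t)
      map_add' := fun s t => by
        refine LinearMap.ext fun f => ?_
        show α (act (s + t) f) = α (act s f) + α (act t f)
        rw [map_add, LinearMap.add_apply, map_add]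
      map_smul' := fun c t => by
        refine LinearMap.ext fun f => ?_
        show α (act (c • t) f) = c • α (act t f)
        rw [map_zsmul, LinearMap.smul_apply, map_zsmul] }
  have hΦ : Function.Injective Φ := by
    rw [injective_iff_map_eq_zero]
    intro f hf
    apply hP
    intro t
    exact LinearMap.congr_fun hf t
  have hΨ : Function.Injective Ψ := by
    rw [injective_iff_map_eq_zero]
    intro t ht
    apply hact
    rw [map_zero]
    refine LinearMap.ext fun f => ?_
    rw [LinearMap.zero_apply]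
    apply hP
    intro s
    have h1 : act s (act t f) = act t (act s f) := by
      rw [← Module.End.mul_apply, ← Module.End.mul_apply, ← map_mul, ← map_mul, mul_comm]
    rw [h1]
    exact LinearMap.congr_fun ht (act s f)
  have hr1 : Module.finrank ℤ T ≤ Module.finrank ℤ (L →ₗ[ℤ] ℤ) :=
    LinearMap.finrank_le_finrank_of_injective hΨ
  rw [Module.finrank_linearMap_self] at hr1
  have hr2 : Module.finrank ℤ (T →ₗ[ℤ] ℤ) ≤ Module.finrank ℤ L := by
    rw [Module.finrank_linearMap_self]
    exact hr1
  obtain ⟨d, hd, f, hf⟩ := exists_nsmul_mem_range_of_finrank_le Φ hΦ hr2 lam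
  have hdiv : ∀ t : T, (d : ℤ) ∣ α (act t f) := by
    intro t
    have h1 : α (act t f) = d • lam t := by
      have := LinearMap.congr_fun hf t
      exact this
    rw [h1]
    exact ⟨lam t, by rw [nsmul_eq_mul]⟩
  obtain ⟨g, rfl⟩ := hSat f d hd hdiv
  refine ⟨g, fun t => ?_⟩
  have h1 : α (act t (d • g)) = d • lam t := LinearMap.congr_fun hf t
  rw [map_nsmul, map_nsmul] at h1
  have hd0 : (d : ℤ) ≠ 0 := by exact_mod_cast hd.ne'
  rw [nsmul_eq_mul, nsmul_eq_mul] at h1
  exact (mul_left_cancel₀ hd0 h1).symm

end Fermat.Agent.H66
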