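import Fermat.Agent.H66.S16HeckeOps
import Fermat.Agent.H66.S16DualAlg

/-!
# DUAL-UB (P-S16): duality `L = Hom(T, ℤ)` and the upper bound in kernel form

`dualityUB : Fermat.Agent.H20.S16.DualityUBStatement`: if every congruence modulus `m`
(there is a cusp form `f ≡ E' mod m`) divides `n = eisensteinNumerator p`, then some `t` in the
kernel of `Φ : HeckeAlg → T` has Eisenstein value `n`.
-/

set_option autoImplicit false

open ModularCurve CuspForm CongruenceSubgroup ModularFormClass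

namespace Fermat.Agent.H66

open Fermat.Agent.H20.S16

/-- Every linear form on `T` is `t ↦ a₁(t f)` for some `f` in the integral lattice. -/
theorem exists_lattice_rep (p : ℕ) [Fact p.Prime]
    (lam : ↥(heckeLatticeAlgebra p ∅) →ₗ[ℤ] ℤ) :
    ∃ f : ↥(CuspForm.intLattice p 2), ∀ t : HeckeAlg,
      lam (evalMap p t) = latCoeff p 1 (latAct p t f) := by
  have := intLattice.moduleFinite p
  have := intLattice.moduleFree p
  have hsurj := evalMap_surjective p
  obtain ⟨f, hf⟩ := exists_rep_of_pairing (L := ↥(CuspForm.intLattice p 2))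
    (T := ↥(heckeLatticeAlgebra p ∅)) (heckeLatticeAlgebra p ∅).val.toRingHom
    Subtype.val_injective (latCoeff p 1)
    (fun f hf => latPairing_nondeg p f (fun t => hf (evalMap p t)))
    (fun f d hd hf => latPairing_saturated p f d hd (fun t => hf (evalMap p t))) lam
  exact ⟨f, fun t => hf (evalMap p t)⟩

/-- A cusp form congruent to `E'` modulo the generator of `ε(ker Φ)`. -/
theorem exists_congr_of_ker (p : ℕ) [Fact p.Prime] (M : ℕ)
    (hM : ∀ t : HeckeAlg, evalMap p t = 0 → (M : ℤ) ∣ eisChar p t) :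
    ∃ f : ↥(CuspForm.intLattice p 2), ∀ k, 1 ≤ k → (M : ℤ) ∣ latCoeff p k f - sigmaP p k := by
  classical
  -- the character mod `M`
  let ψ : HeckeAlg →+* ZMod M := (Int.castRingHom (ZMod M)).comp (eisChar p)
  have hker : RingHom.ker (evalMap p) ≤ RingHom.ker ψ := by
    intro t ht
    rw [RingHom.mem_ker] at ht ⊢
    show ((eisChar p t : ℤ) : ZMod M) = 0
    exact (ZMod.intCast_zmod_eq_zero_iff_dvd _ _).mpr (hM t ht)
  let χ : ↥(heckeLatticeAlgebra p ∅) →+* ZMod M :=
    RingHom.liftOfSurjective (evalMap p) (evalMap_surjective p) ⟨ψ, hker⟩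
  have hχ : ∀ t, χ (evalMap p t) = ψ t := fun t =>
    RingHom.liftOfRightInverse_comp_apply _ _ _ _ t
  -- lift to `ℤ`
  obtain ⟨lam, hlam⟩ := Module.projective_lifting_property
    (Int.castAddHom (ZMod M)).toIntLinearMap χ.toAddMonoidHom.toIntLinearMap
    (fun x => ZMod.intCast_surjective x)
  obtain ⟨f, hf⟩ := exists_lattice_rep p lam
  refine ⟨f, fun k hk => ?_⟩
  obtain ⟨t, ht1, ht2⟩ := exists_heckeOp p k hk
  have h1 : ((lam (evalMap p t) : ℤ) : ZMod M) = χ (evalMap p t) :=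
    LinearMap.congr_fun hlam (evalMap p t)
  rw [hχ, hf t, ht2 f] at h1
  have h2 : ψ t = ((sigmaP p k : ℤ) : ZMod M) := by
    show ((eisChar p t : ℤ) : ZMod M) = _
    rw [ht1]
  rw [h2] at h1
  have h3 := (ZMod.intCast_eq_intCast_iff_dvd_sub _ _ _).mp h1.symm
  exact h3

theorem eisensteinNumerator_pos (p : ℕ) [Fact p.Prime] : 1 ≤ eisensteinNumerator p := by
  have h2 : 2 ≤ p := (Fact.out : p.Prime).two_le
  have hdvd : Nat.gcd (p - 1) 12 ∣ p - 1 := Nat.gcd_dvd_left _ _
  have hpos : 0 < Nat.gcd (p - 1) 12 := Nat.gcd_pos_of_pos_right _ (by norm_num)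
  rw [eisensteinNumerator]
  exact Nat.div_pos (Nat.le_of_dvd (by omega) hdvd) hpos

/-- **DUAL-UB.** -/
theorem dualityUB : Fermat.Agent.H20.S16.DualityUBStatement := by
  intro p _ hyp
  classical
  -- the ideal `ε(ker Φ)` of `ℤ`
  set I : Ideal ℤ := Ideal.map (eisChar p) (RingHom.ker (evalMap p)) with hI
  have hImem : ∀ x : ℤ, x ∈ I ↔ ∃ t : HeckeAlg, evalMap p t = 0 ∧ eisChar p t = x := by
    intro x
    rw [hI, Ideal.mem_map_iff_of_surjective _ (eisChar_surjective p)]
    constructor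
    · rintro ⟨t, ht, rfl⟩
      exact ⟨t, RingHom.mem_ker.mp ht, rfl⟩
    · rintro ⟨t, ht, rfl⟩
      exact ⟨t, RingHom.mem_ker.mpr ht, rfl⟩
  obtain ⟨M, hM⟩ : ∃ M : ℕ, I = Ideal.span {(M : ℤ)} := by
    refine ⟨(Submodule.IsPrincipal.generator I).natAbs, ?_⟩
    rw [Int.span_natAbs, Ideal.span_singleton_generator]
  have hMdvd : ∀ t : HeckeAlg, evalMap p t = 0 → (M : ℤ) ∣ eisChar p t := by
    intro t ht
    have h1 : eisChar p t ∈ I := (hImem _).mpr ⟨t, ht, rfl⟩
    rwa [hM, Ideal.mem_span_singleton] at h1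
  obtain ⟨f, hf⟩ := exists_congr_of_ker p M hMdvd
  -- `f` witnesses `CuspCongr p m` for every `m ∣ M`
  have hcongr : ∀ m : ℕ, (m : ℤ) ∣ (M : ℤ) → CuspCongr p m := by
    intro m hm
    refine ⟨(f : CuspForm (Gamma0 p) 2), fun k => latCoeff p k f, fun k => ?_, fun k hk => ?_⟩
    · exact (latCoeff_spec p f k).symm
    · exact dvd_trans hm (hf k hk)
  have hn1 := eisensteinNumerator_pos p
  rcases Nat.eq_zero_or_pos M with hM0 | hM0
  · -- `M = 0` is impossible
    exfalso
    have h1 : CuspCongr p (eisensteinNumerator p + 1) :=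
      hcongr _ (by rw [hM0]; exact dvd_zero _)
    have h2 := hyp _ (by omega) h1
    have h3 := Nat.le_of_dvd (by omega) h2
    omega
  · have h1 : M ∣ eisensteinNumerator p := hyp M hM0 (hcongr M dvd_rfl)
    have h2 : (eisensteinNumerator p : ℤ) ∈ I := by
      rw [hM, Ideal.mem_span_singleton]
      exact_mod_cast h1
    exact (hImem _).mp h2

end Fermat.Agent.H66
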