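import Fermat.Agent.H20.S16.Interfaces
import Fermat.Agent.H48.Lattice

/-!
# Hecke operators `T_k` on the integral lattice (P-S16, DUAL-UB)

* `latCoeff N n : L →ₗ[ℤ] ℤ` : the integer `n`-th q-coefficient on `L = intLattice N 2`;
* `latAct N : HeckeAlg →+* End_ℤ L` : the action of the abstract Hecke algebra on `L`;
* `sigmaP_mul_self`, `sigmaP_mul_prime` : the divisor-sum identities for `σ'`;
* `exists_heckeOp` : for every `k ≥ 1` there is `t ∈ HeckeAlg` with `a₁(t f) = a_k(f)` on `L`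
  and `eisChar p t = σ'(k)`;
* `latPairing_nondeg`, `latPairing_saturated` : the pairing `(t, f) ↦ a₁(t f)` is non-degenerate
  on the `L`-side and `L` is saturated for it.
-/

set_option autoImplicit false
set_option linter.unusedTactic false

open ModularCurve CuspForm CongruenceSubgroup ModularFormClass

namespace Fermat.Agent.H66

variable (N : ℕ)

/-- The integer `n`-th q-coefficient of an element of the integral lattice. -/
noncomputable def latCoeffFun (f : ↥(CuspForm.intLattice N 2)) (n : ℕ) : ℤ :=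
  Classical.choose ((Fermat.Agent.H48.mem_intLattice_iff (f : CuspForm (Gamma0 N) 2)).mp f.2 n)

theorem latCoeffFun_spec (f : ↥(CuspForm.intLattice N 2)) (n : ℕ) :
    ((latCoeffFun N f n : ℤ) : ℂ) = qCoeff ⇑(f : CuspForm (Gamma0 N) 2) n :=
  (Classical.choose_spec
    ((Fermat.Agent.H48.mem_intLattice_iff (f : CuspForm (Gamma0 N) 2)).mp f.2 n)).symm

/-- The integer `n`-th q-coefficient as a linear form on the integral lattice. -/
noncomputable def latCoeff (n : ℕ) : ↥(CuspForm.intLattice N 2) →ₗ[ℤ] ℤ where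
  toFun f := latCoeffFun N f n
  map_add' f g := by
    have h : ((latCoeffFun N (f + g) n : ℤ) : ℂ) =
        ((latCoeffFun N f n + latCoeffFun N g n : ℤ) : ℂ) := by
      rw [Int.cast_add, latCoeffFun_spec, latCoeffFun_spec, latCoeffFun_spec]
      exact Fermat.Agent.H48.qCoeff_add _ _ n
    exact_mod_cast h
  map_smul' c f := by
    have h : ((latCoeffFun N (c • f) n : ℤ) : ℂ) =
        ((c • latCoeffFun N f n : ℤ) : ℂ) := by
      rw [smul_eq_mul, Int.cast_mul, latCoeffFun_spec, latCoeffFun_spec]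
      exact Fermat.Agent.H48.qCoeff_zsmul c _ n
    exact_mod_cast h

theorem latCoeff_spec (f : ↥(CuspForm.intLattice N 2)) (n : ℕ) :
    ((latCoeff N n f : ℤ) : ℂ) = qCoeff ⇑(f : CuspForm (Gamma0 N) 2) n :=
  latCoeffFun_spec N f n

theorem latCoeff_zero (f : ↥(CuspForm.intLattice N 2)) : latCoeff N 0 f = 0 := by
  have h : ((latCoeff N 0 f : ℤ) : ℂ) = ((0 : ℤ) : ℂ) := by
    rw [latCoeff_spec, Int.cast_zero]
    exact Fermat.Agent.H48.qCoeff_cusp_zero _
  exact_mod_cast h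

theorem eq_zero_of_forall_latCoeff (f : ↥(CuspForm.intLattice N 2))
    (h : ∀ n, 1 ≤ n → latCoeff N n f = 0) : f = 0 := by
  apply Subtype.ext
  apply Fermat.Agent.H48.eq_zero_of_forall_qCoeff_eq_zero
  intro n
  rw [← latCoeff_spec]
  rcases Nat.eq_zero_or_pos n with rfl | hn
  · rw [latCoeff_zero, Int.cast_zero]
  · rw [h n hn, Int.cast_zero]

variable [NeZero N]

/-- The action of the abstract Hecke algebra on the integral lattice. -/
noncomputable def latAct : HeckeAlg →+* Module.End ℤ ↥(CuspForm.intLattice N 2) :=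
  (heckeLatticeAlgebra N ∅).val.toRingHom.comp (Fermat.Agent.H20.S16.evalMap N)

theorem latAct_apply (t : HeckeAlg) :
    latAct N t = ((Fermat.Agent.H20.S16.evalMap N t : ↥(heckeLatticeAlgebra N ∅)) :
      Module.End ℤ ↥(CuspForm.intLattice N 2)) := rfl

theorem coe_latAct (t : HeckeAlg) (f : ↥(CuspForm.intLattice N 2)) :
    ((latAct N t f : ↥(CuspForm.intLattice N 2)) : CuspForm (Gamma0 N) 2) =
      ((heckeEvalForms N 2 t : ↥(heckeAlgebra N 2 ∅)) :
        Module.End ℂ (CuspForm (Gamma0 N) 2)) (f : CuspForm (Gamma0 N) 2) := rfl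

theorem latCoeff_latAct_X_of_not_dvd {ℓ : Nat.Primes} (h : ¬ (ℓ : ℕ) ∣ N)
    (f : ↥(CuspForm.intLattice N 2)) (n : ℕ) :
    latCoeff N n (latAct N (MvPolynomial.X ℓ) f) =
      latCoeff N (n * ℓ) f + if (ℓ : ℕ) ∣ n then (ℓ : ℤ) * latCoeff N (n / ℓ) f else 0 := by
  have key : ((latCoeff N n (latAct N (MvPolynomial.X ℓ) f) : ℤ) : ℂ) =
      ((latCoeff N (n * ℓ) f + if (ℓ : ℕ) ∣ n then (ℓ : ℤ) * latCoeff N (n / ℓ) f else 0 : ℤ) : ℂ) := by
    rw [latCoeff_spec, coe_latAct]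
    have h1 : heckeEvalForms N 2 (MvPolynomial.X ℓ) =
        heckeAlgebra.T ℓ.2 h (Set.notMem_empty _) :=
      heckeEvalForms_heckeGen_of_not_dvd h
    rw [h1, heckeAlgebra.coe_T, Fermat.Agent.H48.qCoeff_heckeTLin ℓ.2 h]
    push_cast
    rw [latCoeff_spec]
    split_ifs
    · rw [latCoeff_spec]
    · rfl
  exact_mod_cast key

theorem latCoeff_latAct_X_of_dvd {q : Nat.Primes} (h : (q : ℕ) ∣ N)
    (f : ↥(CuspForm.intLattice N 2)) (n : ℕ) :
    latCoeff N n (latAct N (MvPolynomial.X q) f) = latCoeff N (n * q) f := by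
  have key : ((latCoeff N n (latAct N (MvPolynomial.X q) f) : ℤ) : ℂ) =
      ((latCoeff N (n * q) f : ℤ) : ℂ) := by
    rw [latCoeff_spec, coe_latAct]
    have h1 : heckeEvalForms N 2 (MvPolynomial.X q) =
        heckeAlgebra.U q.2 h (Set.notMem_empty _) :=
      heckeEvalForms_heckeGen_of_dvd h
    rw [h1, heckeAlgebra.coe_U, Fermat.Agent.H48.qCoeff_heckeULin q.2 h, latCoeff_spec]
  exact_mod_cast key

open Fermat.Agent.H20.S16

theorem sigmaP_one (p : ℕ) (hp : p.Prime) : sigmaP p 1 = 1 := by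
  have h : (Nat.divisors 1).filter (fun d => ¬ p ∣ d) = {1} := by
    rw [Nat.divisors_one]
    ext x
    simp only [Finset.mem_filter, Finset.mem_singleton]
    constructor
    · rintro ⟨rfl, -⟩; rfl
    · rintro rfl
      exact ⟨rfl, fun h => hp.one_lt.ne' (Nat.dvd_one.mp h)⟩
  rw [sigmaP, h, Finset.sum_singleton, Nat.cast_one]

theorem sigmaP_mul_self (p : ℕ) (hp : p.Prime) (n : ℕ) : sigmaP p (n * p) = sigmaP p n := by
  have h : (Nat.divisors (n * p)).filter (fun d => ¬ p ∣ d) =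
      (Nat.divisors n).filter (fun d => ¬ p ∣ d) := by
    ext x
    simp only [Finset.mem_filter, Nat.mem_divisors]
    constructor
    · rintro ⟨⟨h1, h2⟩, h3⟩
      refine ⟨⟨?_, fun h0 => h2 (by rw [h0, zero_mul])⟩, h3⟩
      have hc : Nat.Coprime x p := ((Nat.Prime.coprime_iff_not_dvd hp).mpr h3).symm
      exact hc.dvd_of_dvd_mul_right h1
    · rintro ⟨⟨h1, h2⟩, h3⟩
      exact ⟨⟨Dvd.dvd.mul_right h1 p, mul_ne_zero h2 hp.ne_zero⟩, h3⟩
  rw [sigmaP, sigmaP, h]

theorem sigmaP_mul_prime (p : ℕ) (hp : p.Prime) {ℓ : ℕ} (hℓ : ℓ.Prime) (hℓp : ℓ ≠ p) (n : ℕ)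
    (hn : 1 ≤ n) :
    sigmaP p (n * ℓ) =
      (1 + (ℓ : ℤ)) * sigmaP p n - if ℓ ∣ n then (ℓ : ℤ) * sigmaP p (n / ℓ) else 0 := by
  classical
  have hpℓ : ¬ p ∣ ℓ := fun h => hℓp ((Nat.prime_dvd_prime_iff_eq hp hℓ).mp h).symm
  have hinj : Function.Injective (fun y : ℕ => y * ℓ) := fun a b h =>
    Nat.eq_of_mul_eq_mul_right hℓ.pos h
  have hA : (Nat.divisors (n * ℓ)).filter (fun d => ¬ p ∣ d) =
      (Nat.divisors n).filter (fun d => ¬ p ∣ d) ∪
        ((Nat.divisors n).filter (fun d => ¬ p ∣ d)).image (fun y => y * ℓ) := by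
    ext x
    simp only [Finset.mem_filter, Nat.mem_divisors, Finset.mem_union, Finset.mem_image]
    constructor
    · rintro ⟨⟨h1, h2⟩, h3⟩
      have hn0 : n ≠ 0 := by omega
      by_cases hx : ℓ ∣ x
      · obtain ⟨y, rfl⟩ := hx
        right
        refine ⟨y, ⟨⟨?_, hn0⟩, fun h => h3 (Dvd.dvd.mul_left h ℓ)⟩, mul_comm y ℓ⟩
        rw [mul_comm n ℓ] at h1
        exact (Nat.mul_dvd_mul_iff_left hℓ.pos).mp h1
      · left
        have hc : Nat.Coprime x ℓ := ((Nat.Prime.coprime_iff_not_dvd hℓ).mpr hx).symm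
        exact ⟨⟨hc.dvd_of_dvd_mul_right h1, hn0⟩, h3⟩
    · rintro (⟨⟨h1, h2⟩, h3⟩ | ⟨y, ⟨⟨h1, h2⟩, h3⟩, rfl⟩)
      · exact ⟨⟨Dvd.dvd.mul_right h1 ℓ, mul_ne_zero h2 hℓ.ne_zero⟩, h3⟩
      · refine ⟨⟨Nat.mul_dvd_mul_right h1 ℓ, mul_ne_zero h2 hℓ.ne_zero⟩, ?_⟩
        intro h
        rcases (Nat.Prime.dvd_mul hp).mp h with h | h
        · exact h3 h
        · exact hpℓ h
  have hB : (Nat.divisors n).filter (fun d => ¬ p ∣ d) ∩
        ((Nat.divisors n).filter (fun d => ¬ p ∣ d)).image (fun y => y * ℓ) =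
      if ℓ ∣ n then ((Nat.divisors (n / ℓ)).filter (fun d => ¬ p ∣ d)).image (fun y => y * ℓ)
      else ∅ := by
    ext x
    simp only [Finset.mem_filter, Nat.mem_divisors, Finset.mem_inter, Finset.mem_image]
    constructor
    · rintro ⟨⟨⟨h1, h2⟩, h3⟩, ⟨y, ⟨⟨h4, -⟩, h5⟩, rfl⟩⟩
      have hℓn : ℓ ∣ n := Dvd.dvd.trans (Dvd.intro_left y rfl) h1
      rw [if_pos hℓn]
      simp only [Finset.mem_filter, Nat.mem_divisors, Finset.mem_image]
      refine ⟨y, ⟨⟨?_, ?_⟩, h5⟩, rfl⟩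
      · exact (Nat.dvd_div_iff_mul_dvd hℓn).mpr (by rw [mul_comm]; exact h1)
      · intro h0
        have := Nat.eq_zero_of_dvd_of_div_eq_zero hℓn h0
        exact h2 this
    · intro hx
      split_ifs at hx with hℓn
      · simp only [Finset.mem_filter, Nat.mem_divisors, Finset.mem_image] at hx
        obtain ⟨y, ⟨⟨h1, h2⟩, h3⟩, rfl⟩ := hx
        have hn0 : n ≠ 0 := by omega
        have h4 : y * ℓ ∣ n := by
          have := (Nat.dvd_div_iff_mul_dvd hℓn).mp h1
          rwa [mul_comm] at this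
        have h5 : ¬ p ∣ y * ℓ := by
          intro h
          rcases (Nat.Prime.dvd_mul hp).mp h with h | h
          · exact h3 h
          · exact hpℓ h
        exact ⟨⟨⟨h4, hn0⟩, h5⟩, ⟨y, ⟨⟨Dvd.dvd.trans (Dvd.intro _ rfl) h4, hn0⟩, h3⟩, rfl⟩⟩
      · simp at hx
  have hsum := Finset.sum_union_inter (s₁ := (Nat.divisors n).filter (fun d => ¬ p ∣ d))
    (s₂ := ((Nat.divisors n).filter (fun d => ¬ p ∣ d)).image (fun y => y * ℓ))
    (f := fun d : ℕ => (d : ℤ))
  rw [← hA, hB] at hsum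
  have himg : ∀ s : Finset ℕ, ∑ x ∈ s.image (fun y => y * ℓ), (x : ℤ) =
      (ℓ : ℤ) * ∑ y ∈ s, (y : ℤ) := by
    intro s
    rw [Finset.sum_image (fun a _ b _ h => hinj h), Finset.mul_sum]
    refine Finset.sum_congr rfl fun y _ => ?_
    push_cast
    ring
  rw [himg] at hsum
  simp only [sigmaP]
  split_ifs at hsum ⊢ with hℓn
  · rw [himg] at hsum
    linear_combination hsum
  · rw [Finset.sum_empty] at hsum
    linear_combination hsum


theorem latAct_mul_apply (s t : HeckeAlg) (f : ↥(CuspForm.intLattice N 2)) :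
    latAct N (s * t) f = latAct N s (latAct N t f) := by
  rw [map_mul, Module.End.mul_apply]

theorem latAct_C_apply (c : ℤ) (f : ↥(CuspForm.intLattice N 2)) :
    latAct N (MvPolynomial.C c) f = c • f := by
  have h : (MvPolynomial.C c : HeckeAlg) = ((c : ℤ) : HeckeAlg) := eq_intCast MvPolynomial.C c
  rw [h, map_intCast, Module.End.intCast_apply]

theorem eisChar_X (p : ℕ) (ℓ : Nat.Primes) : eisChar p (MvPolynomial.X ℓ) = eisensteinSystem p ℓ := by
  simp [eisChar]

theorem eisChar_C (p : ℕ) (c : ℤ) : eisChar p (MvPolynomial.C c) = c := by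
  simp [eisChar]


/-- For every `k ≥ 1` there is a Hecke operator `t` with `a₁(t f) = a_k(f)` and Eisenstein
eigenvalue `σ'(k)`. -/
theorem exists_heckeOp (p : ℕ) [Fact p.Prime] (k : ℕ) (hk : 1 ≤ k) :
    ∃ t : HeckeAlg, eisChar p t = sigmaP p k ∧
      ∀ f : ↥(CuspForm.intLattice p 2), latCoeff p 1 (latAct p t f) = latCoeff p k f := by
  have hp : p.Prime := Fact.out
  induction k using Nat.strong_induction_on with
  | _ k ih =>
    rcases Nat.eq_or_lt_of_le hk with h1 | h1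
    · refine ⟨1, ?_, fun f => ?_⟩
      · rw [map_one, ← h1, sigmaP_one p hp]
      · rw [map_one, Module.End.one_apply, ← h1]
    · -- `k ≥ 2`
      have hk1 : k ≠ 1 := by omega
      have hℓ : (k.minFac).Prime := Nat.minFac_prime hk1
      obtain ⟨n, hn⟩ : k.minFac ∣ k := Nat.minFac_dvd k
      generalize k.minFac = ℓ₀ at hℓ hn
      have hkn : k = n * ℓ₀ := by rw [hn, mul_comm]
      clear hn
      subst hkn
      have hn1 : 1 ≤ n := by
        rcases Nat.eq_zero_or_pos n with h0 | h0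
        · rw [h0, zero_mul] at hk
          omega
        · exact h0
      have hnk : n < n * ℓ₀ := by
        have := hℓ.two_le
        nlinarith
      obtain ⟨tn, htn1, htn2⟩ := ih n hnk hn1
      set ℓ : Nat.Primes := ⟨ℓ₀, hℓ⟩ with hℓdef
      have hℓc : (ℓ : ℕ) = ℓ₀ := rfl
      by_cases hℓp : (ℓ : ℕ) ∣ p
      · -- `ℓ = p`
        have hℓp' : ℓ₀ = p := (Nat.prime_dvd_prime_iff_eq hℓ hp).mp hℓp
        refine ⟨tn * MvPolynomial.X ℓ, ?_, fun f => ?_⟩
        · rw [map_mul, htn1, eisChar_X, eisensteinSystem_of_dvd hℓp, mul_one, hℓp',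
            sigmaP_mul_self p hp]
        · rw [latAct_mul_apply, htn2, latCoeff_latAct_X_of_dvd p hℓp]
      · have hℓp' : ℓ₀ ≠ p := fun h => hℓp (by rw [hℓc, h])
        by_cases hℓn : ℓ₀ ∣ n
        · have hm1 : 1 ≤ n / ℓ₀ := Nat.div_pos (Nat.le_of_dvd hn1 hℓn) hℓ.pos
          have hmk : n / ℓ₀ < n * ℓ₀ := lt_of_le_of_lt (Nat.div_le_self _ _) hnk
          obtain ⟨tm, htm1, htm2⟩ := ih (n / ℓ₀) hmk hm1
          refine ⟨tn * MvPolynomial.X ℓ - MvPolynomial.C ((ℓ₀ : ℕ) : ℤ) * tm, ?_, fun f => ?_⟩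
          · rw [map_sub, map_mul, map_mul, htn1, htm1, eisChar_X, eisChar_C,
              eisensteinSystem_of_not_dvd hℓp,
              sigmaP_mul_prime p hp hℓ hℓp' n hn1, if_pos hℓn]
            push_cast
            ring
          · rw [map_sub, LinearMap.sub_apply, map_sub, latAct_mul_apply, htn2,
              latCoeff_latAct_X_of_not_dvd p hℓp, if_pos hℓn, latAct_mul_apply, latAct_C_apply,
              map_zsmul, htm2, smul_eq_mul, add_sub_cancel_right]
        · refine ⟨tn * MvPolynomial.X ℓ, ?_, fun f => ?_⟩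
          · rw [map_mul, htn1, eisChar_X, eisensteinSystem_of_not_dvd hℓp,
              sigmaP_mul_prime p hp hℓ hℓp' n hn1, if_neg hℓn]
            push_cast
            ring
          · rw [latAct_mul_apply, htn2, latCoeff_latAct_X_of_not_dvd p hℓp, if_neg hℓn,
              add_zero]


/-- Non-degeneracy of the pairing `(t, f) ↦ a₁(t f)` on the lattice side. -/
theorem latPairing_nondeg (p : ℕ) [Fact p.Prime] (f : ↥(CuspForm.intLattice p 2))
    (h : ∀ t : HeckeAlg, latCoeff p 1 (latAct p t f) = 0) : f = 0 := by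
  apply eq_zero_of_forall_latCoeff
  intro n hn
  obtain ⟨t, -, ht⟩ := exists_heckeOp p n hn
  rw [← ht f]
  exact h t

/-- Saturation of the lattice for the pairing `(t, f) ↦ a₁(t f)`. -/
theorem latPairing_saturated (p : ℕ) [Fact p.Prime] (f : ↥(CuspForm.intLattice p 2)) (d : ℕ)
    (hd : 0 < d) (h : ∀ t : HeckeAlg, (d : ℤ) ∣ latCoeff p 1 (latAct p t f)) :
    ∃ g : ↥(CuspForm.intLattice p 2), f = d • g := by
  have hdiv : ∀ n, (d : ℤ) ∣ latCoeff p n f := by
    intro n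
    rcases Nat.eq_zero_or_pos n with rfl | hn
    · rw [latCoeff_zero]
      exact dvd_zero _
    · obtain ⟨t, -, ht⟩ := exists_heckeOp p n hn
      rw [← ht f]
      exact h t
  have hd0 : (d : ℂ) ≠ 0 := Nat.cast_ne_zero.mpr hd.ne'
  have hg : ((d : ℂ)⁻¹ • (f : CuspForm (Gamma0 p) 2)) ∈ CuspForm.intLattice p 2 := by
    rw [Fermat.Agent.H48.mem_intLattice_iff]
    intro n
    obtain ⟨c, hc⟩ := hdiv n
    refine ⟨c, ?_⟩
    rw [Fermat.Agent.H48.qCoeff_smul, ← latCoeff_spec, hc]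
    push_cast
    field_simp
  refine ⟨⟨_, hg⟩, ?_⟩
  apply Subtype.ext
  show (f : CuspForm (Gamma0 p) 2) = d • ((d : ℂ)⁻¹ • (f : CuspForm (Gamma0 p) 2))
  rw [← Nat.cast_smul_eq_nsmul ℂ, smul_smul, mul_inv_cancel₀ hd0, one_smul]

end Fermat.Agent.H66

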