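import Mathlib.Analysis.SpecialFunctions.Elliptic.Weierstrass
import Mathlib.Analysis.Meromorphic.Order
import Mathlib.Analysis.Meromorphic.RCLike

/-!
# A period lattice is determined by `g₂` and `g₃`

`Fermat.Agent.H66.lattice_eq_of_g₂_g₃_eq` : two period pairs with the same `g₂`, `g₃` span the
same lattice (sub-task DIM-5a of project P-DIM).
-/

set_option autoImplicit false

open Filter Topology

namespace Fermat.Agent.H66

open PeriodPair

/-- `℘ = ℘[L - 0] + 1 / z ^ 2`. -/
theorem weierstrassP_eq_except_zero (L : PeriodPair) (z : ℂ) :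
    L.weierstrassP z = L.weierstrassPExcept 0 z + 1 / z ^ 2 := by
  have h := L.weierstrassPExcept_def (0 : L.lattice) z
  simp only [ZeroMemClass.coe_zero, sub_zero] at h
  rw [h]
  simp

/-- `℘' = ℘'[L - 0] - 2 / z ^ 3`. -/
theorem derivWeierstrassP_eq_except_zero (L : PeriodPair) (z : ℂ) :
    L.derivWeierstrassP z = L.derivWeierstrassPExcept 0 z - 2 / z ^ 3 := by
  have h := L.derivWeierstrassPExcept_def (0 : L.lattice) z
  simp only [ZeroMemClass.coe_zero, sub_zero] at h
  rw [h]
  ring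

/-- The differential equation of `℘`, cleared of denominators, in terms of the regular parts. -/
theorem ode_cleared (L : PeriodPair) (z : ℂ) (hz : z ∉ L.lattice) :
    (z ^ 3 * L.derivWeierstrassPExcept 0 z - 2) ^ 2 =
      4 * (z ^ 2 * L.weierstrassPExcept 0 z + 1) ^ 3
        - L.g₂ * z ^ 4 * (z ^ 2 * L.weierstrassPExcept 0 z + 1) - L.g₃ * z ^ 6 := by
  have hz0 : z ≠ 0 := by
    rintro rfl
    exact hz (zero_mem _)
  have h := L.derivWeierstrassP_sq z hz
  rw [weierstrassP_eq_except_zero, derivWeierstrassP_eq_except_zero] at h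
  field_simp at h
  linear_combination h

/-- The key relation between the regular parts of two `℘`-functions with the same invariants. -/
theorem key_relation (L L' : PeriodPair) (h2 : L.g₂ = L'.g₂) (h3 : L.g₃ = L'.g₃) (z : ℂ)
    (hz : z ∉ L.lattice) (hz' : z ∉ L'.lattice) :
    (L.derivWeierstrassPExcept 0 z - L'.derivWeierstrassPExcept 0 z) * z *
        (z ^ 3 * (L.derivWeierstrassPExcept 0 z + L'.derivWeierstrassPExcept 0 z) - 4) =
      (L.weierstrassPExcept 0 z - L'.weierstrassPExcept 0 z) *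
        (4 * ((z ^ 2 * L.weierstrassPExcept 0 z + 1) ^ 2
          + (z ^ 2 * L.weierstrassPExcept 0 z + 1) * (z ^ 2 * L'.weierstrassPExcept 0 z + 1)
          + (z ^ 2 * L'.weierstrassPExcept 0 z + 1) ^ 2) - L.g₂ * z ^ 4) := by
  have hz0 : z ≠ 0 := by
    rintro rfl
    exact hz (zero_mem _)
  have h := ode_cleared L z hz
  have h' := ode_cleared L' z hz'
  rw [← h2, ← h3] at h'
  have hz2 : z ^ 2 ≠ 0 := pow_ne_zero _ hz0
  apply mul_left_cancel₀ hz2
  linear_combination h - h'

/-- Points near `0` other than `0` are not in the lattice. -/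
theorem eventually_notMem_lattice (L : PeriodPair) :
    ∀ᶠ z in 𝓝[≠] (0 : ℂ), z ∉ L.lattice := by
  rw [eventually_nhdsWithin_iff]
  filter_upwards [L.compl_lattice_sdiff_singleton_mem_nhds 0] with z hz hz0 hzL
  exact hz ⟨hzL, hz0⟩

theorem eventually_except_eq (L L' : PeriodPair) (h2 : L.g₂ = L'.g₂) (h3 : L.g₃ = L'.g₃) :
    ∀ᶠ z in 𝓝 (0 : ℂ), L.weierstrassPExcept 0 z = L'.weierstrassPExcept 0 z := by
  set a := L.weierstrassPExcept 0 with ha
  set b := L'.weierstrassPExcept 0 with hb
  set a' := L.derivWeierstrassPExcept 0 with ha'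
  set b' := L'.derivWeierstrassPExcept 0 with hb'
  set d : ℂ → ℂ := fun z => a z - b z with hd
  have had : AnalyticAt ℂ a 0 := L.analyticAt_weierstrassPExcept 0
  have hbd : AnalyticAt ℂ b 0 := L'.analyticAt_weierstrassPExcept 0
  have had' : AnalyticAt ℂ a' 0 := L.analyticAt_derivWeierstrassPExcept 0
  have hbd' : AnalyticAt ℂ b' 0 := L'.analyticAt_derivWeierstrassPExcept 0
  have hdan : AnalyticAt ℂ d 0 := had.fun_sub hbd
  by_contra hne
  have hne' : ¬ ∀ᶠ z in 𝓝 (0 : ℂ), d z = 0 := by
    intro h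
    apply hne
    filter_upwards [h] with z hz
    exact sub_eq_zero.mp hz
  obtain ⟨m, e, he_an, he_ne, he_eq⟩ := hdan.exists_eventuallyEq_pow_smul_nonzero_iff.mpr hne'
  simp only [sub_zero, smul_eq_mul] at he_eq
  -- derivative of `d` near `0`, first form
  have hderiv_d : ∀ᶠ z in 𝓝 (0 : ℂ), deriv d z = a' z - b' z := by
    filter_upwards [L.compl_lattice_sdiff_singleton_mem_nhds 0,
      L'.compl_lattice_sdiff_singleton_mem_nhds 0] with z hz hz'
    have h1 : DifferentiableAt ℂ a z :=
      (L.differentiableOn_weierstrassPExcept 0).differentiableAt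
        (L.isOpen_compl_lattice_sdiff.mem_nhds hz)
    have h2 : DifferentiableAt ℂ b z :=
      (L'.differentiableOn_weierstrassPExcept 0).differentiableAt
        (L'.isOpen_compl_lattice_sdiff.mem_nhds hz')
    rw [hd, deriv_fun_sub h1 h2, L.eqOn_deriv_weierstrassPExcept_derivWeierstrassPExcept 0 hz,
      L'.eqOn_deriv_weierstrassPExcept_derivWeierstrassPExcept 0 hz']
  -- derivative of `d` near `0`, second form
  have hderiv_e : ∀ᶠ z in 𝓝 (0 : ℂ), deriv d z = m * z ^ (m - 1) * e z + z ^ m * deriv e z := by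
    have h1 : ∀ᶠ z in 𝓝 (0 : ℂ), d =ᶠ[𝓝 z] fun w => w ^ m * e w := he_eq.eventually_nhds
    filter_upwards [h1, he_an.eventually_analyticAt] with z hz hez
    rw [hz.deriv_eq]
    exact ((hasDerivAt_pow m z).mul hez.differentiableAt.hasDerivAt).deriv
  -- the function which vanishes on a punctured neighbourhood
  set Φ : ℂ → ℂ := fun z =>
    (m * e z + z * deriv e z) * (z ^ 3 * (a' z + b' z) - 4) -
      e z * (4 * ((z ^ 2 * a z + 1) ^ 2 + (z ^ 2 * a z + 1) * (z ^ 2 * b z + 1)
          + (z ^ 2 * b z + 1) ^ 2) - L.g₂ * z ^ 4) with hΦ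
  have hΦ_cont : ContinuousAt Φ 0 := by
    have he' : AnalyticAt ℂ (deriv e) 0 := he_an.deriv
    have c1 := he_an.continuousAt
    have c2 := he'.continuousAt
    have c3 := had.continuousAt
    have c4 := hbd.continuousAt
    have c5 := had'.continuousAt
    have c6 := hbd'.continuousAt
    simp only [hΦ]
    fun_prop
  have hΦ_zero : ∀ᶠ z in 𝓝[≠] (0 : ℂ), Φ z = 0 := by
    filter_upwards [eventually_notMem_lattice L, eventually_notMem_lattice L',
      self_mem_nhdsWithin, nhdsWithin_le_nhds hderiv_d, nhdsWithin_le_nhds hderiv_e,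
      nhdsWithin_le_nhds he_eq] with z hz hz' hz0 hd1 hd2 hdz
    have hz0 : z ≠ 0 := hz0
    have key := key_relation L L' h2 h3 z hz hz'
    have hzm : z ^ m ≠ 0 := pow_ne_zero _ hz0
    have hab : a z - b z = z ^ m * e z := hdz
    have hab' : a' z - b' z = m * z ^ (m - 1) * e z + z ^ m * deriv e z := by
      rw [← hd1, hd2]
    have hzpow : z * z ^ (m - 1) * (m : ℂ) = z ^ m * m := by
      rcases Nat.eq_zero_or_pos m with hm | hm
      · subst hm; simp
      · rw [← pow_succ', Nat.sub_add_cancel hm]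
    rw [hab, hab'] at key
    apply mul_left_cancel₀ hzm
    simp only [hΦ, mul_zero]
    linear_combination key - (e z * (z ^ 3 * (a' z + b' z) - 4)) * hzpow
  have hΦ0 : Φ 0 = 0 := by
    have h1 : Tendsto Φ (𝓝[≠] (0 : ℂ)) (𝓝 (Φ 0)) := hΦ_cont.tendsto.mono_left nhdsWithin_le_nhds
    have h2 : Tendsto Φ (𝓝[≠] (0 : ℂ)) (𝓝 0) :=
      (tendsto_congr' hΦ_zero).mpr tendsto_const_nhds
    exact tendsto_nhds_unique h1 h2
  apply he_ne
  simp only [hΦ] at hΦ0
  have h4 : ((m : ℂ) * 4 + 12) ≠ 0 := by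
    norm_cast
  have : e 0 * ((m : ℂ) * 4 + 12) = 0 := by
    linear_combination -hΦ0
  rcases mul_eq_zero.mp this with h | h
  · exact h
  · exact absurd h h4


/-- With equal invariants, the two `℘`-functions agree on a punctured neighbourhood of every
point. -/
theorem weierstrassP_eventuallyEq (L L' : PeriodPair) (h2 : L.g₂ = L'.g₂) (h3 : L.g₃ = L'.g₃)
    (x : ℂ) : L.weierstrassP =ᶠ[𝓝[≠] x] L'.weierstrassP := by
  set h : ℂ → ℂ := fun z => L.weierstrassP z - L'.weierstrassP z with hh
  have hmero : Meromorphic h := by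
    have h1 := L.meromorphic_weierstrassP
    have h2 := L'.meromorphic_weierstrassP
    intro y
    exact (h1 y).fun_sub (h2 y)
  have h0 : meromorphicOrderAt h 0 = ⊤ := by
    rw [meromorphicOrderAt_eq_top_iff]
    filter_upwards [nhdsWithin_le_nhds (eventually_except_eq L L' h2 h3)] with z hz
    simp only [hh, weierstrassP_eq_except_zero, hz]
    ring
  have hx : meromorphicOrderAt h x = ⊤ := by
    by_contra hne
    exact (hmero.exists_meromorphicOrderAt_ne_top_iff_forall.mp ⟨x, hne⟩) 0 h0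
  rw [meromorphicOrderAt_eq_top_iff] at hx
  filter_upwards [hx] with z hz
  exact sub_eq_zero.mp hz

theorem lattice_le_of_g₂_g₃_eq (L L' : PeriodPair) (h2 : L.g₂ = L'.g₂) (h3 : L.g₃ = L'.g₃) :
    L.lattice ≤ L'.lattice := by
  intro l hl
  by_contra hl'
  have h1 : meromorphicOrderAt L.weierstrassP l = -2 := L.order_weierstrassP l hl
  have h2' : meromorphicOrderAt L.weierstrassP l = meromorphicOrderAt L'.weierstrassP l :=
    meromorphicOrderAt_congr (weierstrassP_eventuallyEq L L' h2 h3 l)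
  have h3' : AnalyticAt ℂ L'.weierstrassP l := L'.analyticOnNhd_weierstrassP l hl'
  have h4 := h3'.meromorphicOrderAt_nonneg
  rw [← h2', h1] at h4
  exact absurd h4 (by decide)

/-- **DIM-5a.** A period lattice is determined by its invariants `g₂` and `g₃`. -/
theorem lattice_eq_of_g₂_g₃_eq (L L' : PeriodPair) (h2 : L.g₂ = L'.g₂) (h3 : L.g₃ = L'.g₃) :
    L.lattice = L'.lattice :=
  le_antisymm (lattice_le_of_g₂_g₃_eq L L' h2 h3) (lattice_le_of_g₂_g₃_eq L' L h2.symm h3.symm)

end Fermat.Agent.H66
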